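import Fermat.Agent.Semistable.Count
import Fermat.Agent.LevelSq.HauptSeries

/-!
# Places of a level divisible by `9` over `2`

With the coordinates of levels `3` and `9`: a crossing lies over `j = 0`; over a finite nonzero
value `j` is unramified; over `0` its order is `4 k`, `k ≤ 3`.
-/

set_option autoImplicit false
set_option linter.style.haveILetI false
set_option linter.unusedSectionVars false
set_option synthInstance.maxHeartbeats 100000

noncomputable section

open ModularCurve AlgebraicCurve IsLocalRing Polynomial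
open scoped IntermediateField

namespace FLTAgent.MazurP.Three

open FLTAgent.GoodRed FLTAgent.GoodRed.RedDatum FLTAgent.GoodRed.SmallPrime FLTAgent.Semistable
  FLTAgent.FunctionField FLTAgent.Genus FLTAgent.Hecke FLTAgent.Igusa

local instance (priority := high) instAlgebraSubNineCoord {K L : Type*} [Field K] [Field L]
    [Algebra K L] (E : IntermediateField K L) : Algebra K E :=
  SubalgebraClass.toAlgebra E

local instance (priority := high) instModuleSubNineCoord {K L : Type*} [Field K] [Field L]
    [Algebra K L] (E : IntermediateField K L) : Module K E :=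
  Algebra.toModule

local notation "Qbar" => AlgebraicClosure ℚ

section coords

variable {K : Type*} [Field K]

/-- The numerator of `j` in the coordinate of level nine. -/
abbrev numNine (K : Type*) [Field K] : K[X] :=
  ((X + C 9) * (X ^ 3 + C 243 * X ^ 2 + C 2187 * X + C 6561)) ^ 3

/-- The denominator of `j` in the coordinate of level nine. -/
abbrev denNine (K : Type*) [Field K] : K[X] := X ^ 9 * (X ^ 2 + C 9 * X + C 27)

theorem natDegree_numNine : (numNine K).natDegree = 12 := by
  have h3 : (X ^ 3 + C 243 * X ^ 2 + C 2187 * X + C 6561 : K[X]).natDegree = 3 := by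
    compute_degree!
  have h0 : (X ^ 3 + C 243 * X ^ 2 + C 2187 * X + C 6561 : K[X]) ≠ 0 := fun h => by
    rw [h, natDegree_zero] at h3; omega
  rw [numNine, natDegree_pow, natDegree_mul (X_add_C_ne_zero _) h0, natDegree_X_add_C, h3]

theorem natDegree_denNine : (denNine K).natDegree = 11 := by
  rw [denNine]; compute_degree!

theorem denNine_ne_zero : denNine K ≠ 0 := fun h => by
  have := natDegree_denNine (K := K)
  rw [h, natDegree_zero] at this
  omega

theorem degree_lt_numNine : (denNine K).natDegree < (numNine K).natDegree := by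
  rw [natDegree_denNine, natDegree_numNine]; norm_num

theorem hNine_equation_map (R : Type*) [CommRing R] :
    jqModC R * (coeffMap (Int.castRingHom R) LevelSq.hNine ^ 9 *
      (coeffMap (Int.castRingHom R) LevelSq.hNine ^ 2 +
        9 * coeffMap (Int.castRingHom R) LevelSq.hNine + 27)) =
      ((coeffMap (Int.castRingHom R) LevelSq.hNine + 9) *
        (coeffMap (Int.castRingHom R) LevelSq.hNine ^ 3 +
          243 * coeffMap (Int.castRingHom R) LevelSq.hNine ^ 2 +
          2187 * coeffMap (Int.castRingHom R) LevelSq.hNine + 6561)) ^ 3 := by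
  have h := congrArg (coeffMap (Int.castRingHom R)) LevelSq.hNine_equation
  simpa only [map_mul, map_pow, map_add, map_ofNat, ModularCurve.coeffMap_jqModC] using h

theorem equation_nine {E : IntermediateField K (LaurentSeries K)} {j s : E}
    (hj : (j : LaurentSeries K) = jqModC K)
    (hs : (s : LaurentSeries K) = coeffMap (Int.castRingHom K) LevelSq.hNine) :
    j * aeval s (denNine K) = aeval s (numNine K) := equation_of_coe (by
  rw [hj, hs]
  simp only [numNine, denNine, map_mul, map_pow, map_add, aeval_X, map_ofNat]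
  exact hNine_equation_map K)

theorem cube_nine {E : IntermediateField K (LaurentSeries K)} {t s : E}
    (ht : (t : LaurentSeries K) = coeffMap (Int.castRingHom K) hauptThree)
    (hs : (s : LaurentSeries K) = coeffMap (Int.castRingHom K) LevelSq.hNine) :
    s ^ 3 = t * (s ^ 2 + 9 * s + 27) := Subtype.ext (by
  have h := congrArg (coeffMap (Int.castRingHom K)) LevelSq.hNine_cube
  simp only [map_mul, map_pow, map_add, map_ofNat] at h
  push_cast
  rw [ht, hs]
  exact h)

/-- In characteristic two a root of `c ^ 4 = c` that is no root of the denominator of `j` is a root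
of the numerator. -/
theorem eval_numNine_eq_zero [CharP K 2] {c : K} (hc : c ^ 4 = c) (hden : (denNine K).eval c ≠ 0) :
    (numNine K).eval c = 0 := by
  have h2 : (2 : K) = 0 := CharP.cast_eq_zero K 2
  have hc0 : c ≠ 0 := fun h => hden (by subst h; simp)
  have hfac : (c - 1) * (c ^ 2 + 9 * c + 27) = 0 := by
    have h3 : c ^ 3 = 1 := mul_left_cancel₀ hc0 (by linear_combination hc)
    linear_combination h3 + (4 * c ^ 2 + 9 * c - 13) * h2
  rcases mul_eq_zero.1 hfac with h1 | h1
  · rw [sub_eq_zero.1 h1]
    simp only [numNine, eval_mul, eval_pow, eval_add, eval_X, eval_C]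
    rw [show (1 + 9 : K) = 2 * 5 by norm_num, h2]
    simp
  · refine absurd ?_ hden
    simp only [denNine, eval_mul, eval_pow, eval_add, eval_X, eval_C, h1, mul_zero]

end coords

section orders

variable {K F : Type*} [Field K] [Field F] [Algebra K F] [IsFunctionField K F] {v : Place K F}

/-- At a pole of the coordinate `j` has the same order. -/
theorem ord_eq_of_pole {P Q : K[X]} (hd : P.natDegree = Q.natDegree + 1) (hQ : Q ≠ 0) {s j : F}
    (h : j * aeval s Q = aeval s P) (hs : v.ord s < 0) : v.ord j = v.ord s := by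
  have hP : P ≠ 0 := fun h0 => by rw [h0, natDegree_zero] at hd; omega
  obtain ⟨h1, h1'⟩ := ord_aeval_of_ord_neg hs P hP
  obtain ⟨h2, h2'⟩ := ord_aeval_of_ord_neg hs Q hQ
  have hj0 : j ≠ 0 := fun h0 => h1 (by rw [← h, h0, zero_mul])
  have e : v.ord (j * aeval s Q) = v.ord (aeval s P) := congrArg v.ord h
  rw [v.ord_mul hj0 h2, h1', h2', hd] at e
  push_cast at e
  linarith

end orders

variable {M : ℕ} [NeZero M] {A : ValuationSubring (AlgebraicClosure ℚ)}
  (hA : A.LiesOverPrime 2) [CharP (ResidueField A) 2] [IsAlgClosed (ResidueField A)]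
  (hqM : ¬ 2 ∣ M)
  [IsFunctionField (ResidueField A) (modularFunctionFieldFullC (ResidueField A) M)]

local instance instFactTwoNine : Fact (Nat.Prime 2) := ⟨Nat.prime_two⟩

set_option maxHeartbeats 1600000 in
-- the statement mentions several large fields
include hA hqM in
/-- A crossing lies over `j = 0`. -/
theorem crossing_ord_pos (h9 : 9 ∣ M) (R : PlaceRed (x0Datum A hA M hqM))
    {x : Place (ResidueField A) (modularFunctionFieldFullC (ResidueField A) M)}
    (hx : x ∈ crossingSet A hA hqM) : 0 < x.ord (x0Jb A hA M hqM) := by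
  obtain ⟨s, sb, hs, hsc, hsbc⟩ := exists_hauptCoord hA hqM (LevelSq.intToRat_hNine_mem h9)
  obtain ⟨hg, -⟩ := Igusa.red_intToRat 2 LevelSq.hNine
  have hu : ratMF (u := (⟨intToRat LevelSq.hNine, hg⟩ : Igusa.gaussRing 2))
      (LevelSq.intToRat_hNine_mem h9 (M := M)) = s := Subtype.ext (by
    rw [hsc]
    exact HahnSeries.ext (funext fun k => map_intCast _ _))
  have hjs := equation_nine (j := jMF Qbar M) (jMF_coe Qbar M) hsc
  have hregs : s ∈ riemannRochSpace (1 • zeroDivisor (K := Qbar) (jMF Qbar M)⁻¹) := by
    refine mem_rr_iff.2 fun v => ordGe_of_le_ord ?_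
    rw [one_smul, zeroDivisor_apply, v.ord_inv]
    rcases le_or_gt 0 (v.ord s) with h | h
    · omega
    · rw [ord_eq_of_pole (by rw [natDegree_numNine, natDegree_denNine]) denNine_ne_zero hjs h]
      omega
  let u : RegRat M 2 := ⟨⟨_, hg⟩, LevelSq.intToRat_hNine_mem h9, 1, by rw [hu]; exact hregs⟩
  have hxj : 0 ≤ x.ord (x0Jb A hA M hqM) := hx.1
  have heq := equation_nine (coe_x0Jb A hA M hqM) hsbc
  have hsx : OrdGe x 0 sb :=
    ordGe_of_le_ord (ord_nonneg_of_equation degree_lt_numNine denNine_ne_zero heq hxj)
  obtain ⟨c, hc⟩ := exists_value hsx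
  have hc4 : c ^ 4 = c := by
    have := crossing_value hA hqM R hx (v := u) (vb := sb) (by
      show (x0Datum A hA M hqM).Red (ratMF _) sb
      rw [hu]; exact hs) hc
    simpa using this
  obtain ⟨hQ, hP⟩ : OrdGe x 1 (aeval sb (denNine (ResidueField A)) -
      algebraMap _ _ ((denNine (ResidueField A)).eval c)) ∧
      OrdGe x 1 (aeval sb (numNine (ResidueField A)) -
      algebraMap _ _ ((numNine (ResidueField A)).eval c)) := by
    constructor <;>
    · rcases eq_or_ne (sb - algebraMap (ResidueField A) _ c) 0 with h0 | h0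
      · rw [sub_eq_zero.1 h0, aeval_algebraMap_apply_eq_algebraMap_eval, sub_self]
        exact ordGe_zero _
      · exact (ordGe_sub_eval (hc.le_ord h0) _).2
  have hden : (denNine (ResidueField A)).eval c ≠ 0 := fun h0 => by
    rw [h0, map_zero, sub_zero] at hQ
    have h1 := (ordGe_of_le_ord (f := x0Jb A hA M hqM) hxj).mul hQ
    rw [heq, zero_add] at h1
    have h2 : OrdGe x 1 (algebraMap (ResidueField A) (modularFunctionFieldFullC (ResidueField A) M)
        ((numNine (ResidueField A)).eval c)) := by
      simpa using h1.sub hP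
    have hne : (numNine (ResidueField A)).eval c ≠ 0 := by
      intro hn
      have h2' : (2 : ResidueField A) = 0 := CharP.cast_eq_zero _ 2
      simp only [numNine, denNine, eval_mul, eval_pow, eval_add, eval_X, eval_C] at hn h0
      rcases mul_eq_zero.1 h0 with h | h
      · rw [pow_eq_zero_iff (by norm_num)] at h
        subst h
        simp only [zero_add, mul_zero, ne_eq, OfNat.ofNat_ne_zero, not_false_eq_true, zero_pow]
          at hn
        have h1 : ((9 : ResidueField A) * 6561) ^ 3 = 1 := by
          rw [show ((9 : ResidueField A) * 6561) = 1 + 2 * 29524 by norm_num, h2']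
          simp
        rw [h1] at hn
        exact one_ne_zero hn
      · have hA' := eq_zero_of_pow_eq_zero hn
        have h3 : c ^ 2 + c + 1 = 0 := by linear_combination h - (4 * c + 13) * h2'
        have e : (c + 9) * (c ^ 3 + 243 * c ^ 2 + 2187 * c + 6561) = (c + 1) ^ 4 := by
          linear_combination (124 * c ^ 3 + 2184 * c ^ 2 + 13120 * c + 29524) * h2'
        have h4 : (c + 1) ^ 4 = 0 := e ▸ hA'
        have hc1 := eq_zero_of_pow_eq_zero h4
        refine one_ne_zero (α := ResidueField A) ?_
        linear_combination h3 - c * hc1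
    have := h2.le_ord ((_root_.map_ne_zero _).2 hne)
    rw [ord_algebraMap] at this
    omega
  rw [eval_numNine_eq_zero hc4 hden, map_zero, sub_zero] at hP
  obtain ⟨hQne, hQord⟩ := ord_eq_of_ordGe_sub hQ ((_root_.map_ne_zero _).2 hden)
    (by rw [ord_algebraMap]; omega)
  rw [ord_algebraMap] at hQord
  have hj0 : x0Jb A hA M hqM ≠ 0 := ne_zero_of_transcendental (transcendental_x0Jb A hA M hqM)
  rw [← heq] at hP
  have := hP.le_ord (mul_ne_zero hj0 hQne)
  rw [x.ord_mul hj0 hQne, hQord, add_zero] at this
  omega

/-- In characteristic `2` the derivative of `j` is `j`. -/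
theorem euler_x0Jb :
    euler (x0Jb A hA M hqM : LaurentSeries (ResidueField A)) =
      -(x0Jb A hA M hqM : LaurentSeries (ResidueField A)) := by
  set t : LaurentSeries (ResidueField A) := coeffMap (Int.castRingHom _) hauptThree
  have heq := hauptThree_equation_map (ResidueField A)
  have h2 : ((2 : ℕ) : LaurentSeries (ResidueField A)) = 0 := by
    rw [← map_natCast (algebraMap (ResidueField A) (LaurentSeries (ResidueField A))),
      CharP.cast_eq_zero (ResidueField A) 2, map_zero]
  push_cast at h2
  have ht := euler_hauptThree_map (K := ResidueField A) (CharP.cast_eq_zero _ 2)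
  rw [coe_x0Jb]
  set j := jqModC (ResidueField A)
  have ht0 : t ≠ 0 := by
    intro h0
    have h1 := congrArg (fun z : LaurentSeries (ResidueField A) => z.coeff (-1)) h0
    simp only [t, HahnSeries.coeff_zero, coeffMap_coeff,
      LevelSq.hasLead_hauptThree.coeff_eq] at h1
    simp at h1
  have e : j * t ^ 3 = (t + 1) ^ 4 := by
    linear_combination heq + (13 * (t + 243) ^ 3 + (t + 1) * 121 * ((t + 243) ^ 2 +
      (t + 243) * (t + 1) + (t + 1) ^ 2)) * h2
  have e' := congrArg euler e
  rw [euler_mul, euler_pow, euler_pow, map_add, euler_one, ht] at e'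
  refine mul_right_cancel₀ (pow_ne_zero 3 ht0) ?_
  linear_combination e' + (2 * j * t ^ 3 - 2 * (t + 1) ^ 3 * t) * h2

variable (R : PlaceRed (x0Datum A hA M hqM)) {g c : ℤ} (hL : RRLarge Qbar (MF Qbar M) g c)
  (hk : RRLarge (ResidueField A) (modularFunctionFieldFullC (ResidueField A) M) g c)
include hL hk R

set_option maxHeartbeats 1600000 in
-- the statement mentions several large fields
/-- Off `0` and the cusps `j` is unramified. -/
theorem ord_jb_sub_eq_one (h9 : 9 ∣ M)
    {x : Place (ResidueField A) (modularFunctionFieldFullC (ResidueField A) M)}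
    {a : ResidueField A} (ha : a ≠ 0)
    (hx : 0 < x.ord (x0Jb A hA M hqM - algebraMap (ResidueField A) _ a)) :
    x.ord (x0Jb A hA M hqM - algebraMap (ResidueField A) _ a) = 1 := by
  classical
  set jb := x0Jb A hA M hqM
  have hj0 : jb ≠ 0 := ne_zero_of_transcendental (transcendental_x0Jb A hA M hqM)
  obtain ⟨h1, h2⟩ := ord_eq_of_ordGe_sub (v := x) (f := jb)
    (g := algebraMap (ResidueField A) _ a) (n := 1) (ordGe_of_le_ord (by omega))
    ((_root_.map_ne_zero _).2 ha) (by rw [ord_algebraMap]; omega)
  rw [ord_algebraMap] at h2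
  have hcr : x ∉ crossingSet A hA hqM := fun hc => by
    have h3 : 0 < x.ord jb := crossing_ord_pos hA hqM h9 R hc
    omega
  have h := le_ord_euler_pow hA hqM R hL hk (x := x) h2.ge (t := jb) (Rc := -jb)
    (by rw [euler_x0Jb hA hqM]; simp [jb])
    (neg_ne_zero.2 hj0) hx
  rw [FunctionField.ord_neg, h2, if_neg hcr] at h
  norm_num at h
  omega

set_option maxHeartbeats 800000 in
-- the statement mentions several large fields
/-- Over `0` the order of `j` is `4 k`, `1 ≤ k ≤ 3`. -/
theorem exists_ord_jb_eq (h3 : 3 ∣ M)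
    {x : Place (ResidueField A) (modularFunctionFieldFullC (ResidueField A) M)}
    (hx : 0 < x.ord (x0Jb A hA M hqM)) :
    ∃ k : ℤ, 1 ≤ k ∧ k ≤ 3 ∧ x.ord (x0Jb A hA M hqM) = 4 * k := by
  classical
  set jb := x0Jb A hA M hqM
  obtain ⟨t, tb, -, -, htbc⟩ := exists_hauptCoord hA hqM (intToRat_hauptThree_mem h3)
  have heq := equation_three (coe_x0Jb A hA M hqM) htbc
  have h2 : (2 : modularFunctionFieldFullC (ResidueField A) M) = 0 := by
    rw [← map_ofNat (algebraMap (ResidueField A) (modularFunctionFieldFullC (ResidueField A) M)),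
      show (2 : ResidueField A) = 0 from CharP.cast_eq_zero _ 2, map_zero]
  have e : jb * tb ^ 3 = (tb + 1) ^ 4 := by
    simp only [numThree, map_mul, map_pow, map_add, aeval_X, map_ofNat] at heq
    linear_combination heq + (13 * (tb + 243) ^ 3 + (tb + 1) * 121 * ((tb + 243) ^ 2 +
      (tb + 243) * (tb + 1) + (tb + 1) ^ 2)) * h2
  have htreg : 0 ≤ x.ord tb :=
    ord_nonneg_of_equation degree_lt_numThree (pow_ne_zero 3 X_ne_zero) heq hx.le
  have hj0 : jb ≠ 0 := ne_zero_of_transcendental (transcendental_x0Jb A hA M hqM)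
  have ht0 : tb ≠ 0 := fun h0 => by rw [h0] at e; simp at e
  have ht1 : tb + 1 ≠ 0 := fun h0 => by
    rw [h0] at e; simp [hj0, ht0] at e
  have e' := congrArg x.ord e
  rw [x.ord_mul hj0 (pow_ne_zero _ ht0), FunctionField.ord_pow, FunctionField.ord_pow] at e'
  push_cast at e'
  have hpos : 0 < x.ord (tb + 1) := by omega
  have e1 : tb - algebraMap (ResidueField A) _ (1 : ResidueField A) = tb + 1 := by
    rw [map_one]; linear_combination -h2
  obtain ⟨-, htu⟩ := ord_eq_of_ordGe_sub (v := x) (f := tb)
    (g := (1 : modularFunctionFieldFullC (ResidueField A) M)) (n := 1)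
    (ordGe_of_le_ord (by rw [show tb - 1 = tb + 1 by linear_combination -h2]; omega))
    one_ne_zero (by rw [x.ord_one]; omega)
  rw [x.ord_one] at htu
  have h := le_ord_euler_pow hA hqM R hL hk (x := x) hx.le (t := tb) (Rc := -tb)
    (a := (1 : ResidueField A))
    (by rw [htbc, euler_hauptThree_map (CharP.cast_eq_zero _ 2)]; simp [htbc])
    (neg_ne_zero.2 ht0) (by rw [e1]; exact hpos)
  rw [e1, FunctionField.ord_neg, htu] at h
  refine ⟨x.ord (tb + 1), hpos, ?_, by omega⟩
  split_ifs at h <;> norm_num at h <;> omega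

end FLTAgent.MazurP.Three
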