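import Fermat.Agent.MazurP.Three.Tools
import Fermat.Agent.MazurP.Three.NineCoord

/-!
# The poles of the coordinate of level `9` over the cusps of level `M`

For `3 ∤ M` the image in level `M` of the polar divisor of the coordinate of level `9` is the polar
divisor of `j`, in characteristic zero.
-/

set_option autoImplicit false
set_option linter.style.haveILetI false
set_option linter.unusedSectionVars false
set_option synthInstance.maxHeartbeats 100000

noncomputable section

open ModularCurve AlgebraicCurve Polynomial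
open scoped IntermediateField

namespace FLTAgent.MazurP.Three

open FLTAgent.GoodRed FLTAgent.GoodRed.SmallPrime FLTAgent.Semistable
  FLTAgent.FunctionField FLTAgent.Genus FLTAgent.Hecke FLTAgent.Igusa

local notation "Qbar" => AlgebraicClosure ℚ

section coprime

variable {K : Type*} [Field K] [IsAlgClosed K]

theorem isCoprime_nine (h3 : (3 : K) ≠ 0) : IsCoprime (numNine K) (denNine K) := by
  refine (isCoprime_iff_aeval_ne_zero_of_isAlgClosed K K _ _).2 fun c => ?_
  rw [or_iff_not_imp_left]
  intro hA hB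
  rw [not_not] at hA
  simp only [numNine, denNine, coe_aeval_eq_eval, eval_mul, eval_pow, eval_add, eval_X, eval_C]
    at hA hB
  have hA' := eq_zero_of_pow_eq_zero hA
  have hc : c = 0 := by
    rcases mul_eq_zero.1 hB with h | h
    · exact eq_zero_of_pow_eq_zero h
    · have e : -(27 : K) * c ^ 3 = 0 := by
        linear_combination c * hA' - (c ^ 3 + 243 * (c ^ 2 + 9 * c + 27) - 27 * 243) * h
      rw [show -(27 : K) = -(3 ^ 3) by norm_num] at e
      simpa [h3] using e
  subst hc
  have e : (3 : K) ^ 10 = 0 := by linear_combination hA'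
  exact h3 (eq_zero_of_pow_eq_zero e)

end coprime

section values

variable {K F : Type*} [Field K] [Field F] [Algebra K F] [IsFunctionField K F] {v : Place K F}

/-- A polynomial in a function vanishing at a place has order zero there unless it vanishes at
`0`. -/
theorem ord_aeval_of_eval_zero_ne {t : F} (ht : 0 < v.ord t) {P : K[X]} (hP : P.eval 0 ≠ 0) :
    aeval t P ≠ 0 ∧ v.ord (aeval t P) = 0 := by
  have h0 : 0 < v.ord (t - algebraMap K F 0) := by rwa [map_zero, sub_zero]
  obtain ⟨h1, h2⟩ := ord_eq_of_ordGe_sub (ordGe_sub_eval h0 P).2 ((_root_.map_ne_zero _).2 hP)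
    (by rw [ord_algebraMap]; omega)
  exact ⟨h1, h2.trans (ord_algebraMap _)⟩

/-- A root of the cubic of level nine over a zero of `t` makes the order of `t` divisible by `3`. -/
theorem three_dvd_ord_of_cube [CharZero K] {r t : F} (e : r ^ 3 = t * (r ^ 2 + 9 * r + 27))
    (hw : 0 < v.ord t) : (3 : ℤ) ∣ v.ord t := by
  have ht0 : t ≠ 0 := fun h0 => by rw [h0, Place.ord_zero] at hw; omega
  have hr0 : r ≠ 0 := fun h0 => by
    subst h0
    have h : t * algebraMap K F 27 = 0 := by rw [map_ofNat]; simpa using e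
    exact mul_ne_zero ht0 ((_root_.map_ne_zero _).2 (by norm_num)) h
  rcases le_or_gt (v.ord r) 0 with hle | hpos
  · have hq : OrdGe v (2 * v.ord r) (r ^ 2 + 9 * r + 27) := by
      refine (((ordGe_ord (r ^ 2)).mono (by rw [FunctionField.ord_pow]; omega)).add ?_).add ?_
      · rw [show (9 : F) = algebraMap K _ 9 by rw [map_ofNat]]
        exact ((ordGe_algebraMap _).mul (ordGe_ord r)).mono (by omega)
      · rw [show (27 : F) = algebraMap K _ 27 by rw [map_ofNat]]
        exact (ordGe_algebraMap _).mono (by omega)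
    have h1 := (ordGe_of_le_ord (n := 1) (by omega : 1 ≤ v.ord t)).mul hq
    rw [← e] at h1
    have := h1.le_ord (pow_ne_zero _ hr0)
    rw [FunctionField.ord_pow] at this
    omega
  · obtain ⟨hq0, hq⟩ := ord_eq_of_ordGe_sub (v := v) (f := r ^ 2 + 9 * r + 27)
      (g := algebraMap K _ (27 : K)) (n := 1) (by
        rw [map_ofNat, add_sub_cancel_right]
        refine ((ordGe_ord (r ^ 2)).mono (by rw [FunctionField.ord_pow]; omega)).add ?_
        rw [show (9 : F) = algebraMap K _ 9 by rw [map_ofNat]]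
        exact ((ordGe_algebraMap _).mul (ordGe_ord r)).mono (by omega))
      ((_root_.map_ne_zero _).2 (by norm_num)) (by rw [ord_algebraMap]; omega)
    rw [ord_algebraMap] at hq
    have e' := congrArg v.ord e
    rw [FunctionField.ord_pow, v.ord_mul ht0 hq0, hq] at e'
    exact ⟨v.ord r, by push_cast at e'; linarith⟩

theorem eval_numThree_zero [CharZero K] : (numThree K).eval 0 ≠ 0 := by
  simp only [numThree, eval_mul, eval_pow, eval_add, eval_X, eval_C, zero_add]
  norm_num

end values

section cusps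

variable {M : ℕ} [NeZero M]

/-- The width of a cusp divides the level. -/
theorem ord_inv_dvd_of_eq {E : IntermediateField Qbar (LaurentSeries Qbar)}
    (hE : E = modularFunctionFieldC Qbar M) (j : E) (hj : (j : LaurentSeries Qbar) = jqModC Qbar)
    {v : Place Qbar E} (hv : 0 < v.ord j⁻¹) : v.ord j⁻¹ ∣ (M : ℤ) := by
  subst hE
  obtain rfl : j = jEl Qbar M := Subtype.ext hj
  obtain ⟨ι⟩ := exists_qbar_hom
  obtain ⟨i, hi⟩ := (cuspData (N := M) ι).exists_place_eq hasResidueK_modular sum_ord_inv_le_card hv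
  have h := (cuspData (N := M) ι).ord_dvd i
  rwa [hi] at h

/-- The widths of the cusps are prime to `3` if the level is. -/
theorem not_three_dvd_ord_of_cusp (h3 : ¬ 3 ∣ M) {v : Place Qbar (MF Qbar M)}
    (hv : v.ord (jMF Qbar M) < 0) : ¬ (3 : ℤ) ∣ v.ord (jMF Qbar M) := fun hd => by
  have h := ord_inv_dvd_of_eq ((degreeFacts Qbar).gen M) (jMF Qbar M) (jMF_coe Qbar M) (v := v)
    (by rw [v.ord_inv]; omega)
  rw [v.ord_inv] at h
  exact h3 (Int.natCast_dvd_natCast.1 (((Int.dvd_neg).2 hd).trans h))

variable [NeZero (M * 3)] [NeZero (M * 9)]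

theorem psi_three (h3 : ¬ 3 ∣ M) :
    dedekindPsi (M * 3) = 4 * dedekindPsi M ∧ dedekindPsi (M * 9) = 12 * dedekindPsi M := by
  have h1 := dedekindPsi_mul_prime_of_not_dvd (NeZero.ne M) Nat.prime_three h3
  have h2 := dedekindPsi_mul_prime_of_dvd (NeZero.ne (M * 3)) Nat.prime_three (dvd_mul_left 3 M)
  exact ⟨h1, by rw [show M * 9 = M * 3 * 3 by ring, h2, h1]; ring⟩

theorem dvd_three : M * 1 ∣ M * 3 := by rw [mul_one]; exact dvd_mul_right M 3

theorem dvd_three_nine : M * 3 * 1 ∣ M * 9 := by rw [mul_one]; exact ⟨3, by ring⟩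

theorem dvd_nine : M * 1 ∣ M * 9 := by rw [mul_one]; exact dvd_mul_right M 9

variable (M) in
/-- From level `M` to level `3 M`. -/
abbrev upThree : MF Qbar M →ₐ[Qbar] MF Qbar (M * 3) := degMap Qbar 1 dvd_three

variable (M) in
/-- From level `3 M` to level `9 M`. -/
abbrev upThreeNine : MF Qbar (M * 3) →ₐ[Qbar] MF Qbar (M * 9) := degMap Qbar 1 dvd_three_nine

variable (M) in
/-- From level `M` to level `9 M`. -/
abbrev upNine : MF Qbar M →ₐ[Qbar] MF Qbar (M * 9) := degMap Qbar 1 dvd_nine

theorem finrankAlong_upThree (h3 : ¬ 3 ∣ M) : finrankAlong Qbar (upThree M) = 4 := by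
  have h := finrankAlong_degMap (degreeFacts Qbar) (dvd_three (M := M))
  rw [(psi_three h3).1, mul_comm 4] at h
  exact Nat.eq_of_mul_eq_mul_left (dedekindPsi_pos (NeZero.ne M)) h

theorem finrankAlong_upThreeNine (h3 : ¬ 3 ∣ M) : finrankAlong Qbar (upThreeNine M) = 3 := by
  have h := finrankAlong_degMap (degreeFacts Qbar) (dvd_three_nine (M := M))
  rw [(psi_three h3).2, (psi_three h3).1, show 12 * dedekindPsi M = 4 * dedekindPsi M * 3 by ring]
    at h
  exact Nat.eq_of_mul_eq_mul_left (Nat.mul_pos (by norm_num) (dedekindPsi_pos (NeZero.ne M))) h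

theorem degMap_one_jMF {N N' : ℕ} [NeZero N] [NeZero N'] (h : N * 1 ∣ N') :
    degMap Qbar 1 h (jMF Qbar N) = jMF Qbar N' :=
  Subtype.ext (by rw [coe_degMap, qExpand_one_apply, jMF_coe, jMF_coe])

variable {t : MF Qbar (M * 3)} (ht : (t : LaurentSeries Qbar) = coeffMap (Int.castRingHom Qbar)
  hauptThree) {s : MF Qbar (M * 9)}
  (hs : (s : LaurentSeries Qbar) = coeffMap (Int.castRingHom Qbar) LevelSq.hNine)
include ht

/-- The orders of `j` and `t`. -/
theorem ord_t_cases (w : Place Qbar (MF Qbar (M * 3))) (hw : w.ord (jMF Qbar (M * 3)) < 0) :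
    (w.ord t < 0 ∧ w.ord t = w.ord (jMF Qbar (M * 3))) ∨
      (0 < w.ord t ∧ 3 * w.ord t = -w.ord (jMF Qbar (M * 3))) := by
  have heq := equation_three (j := jMF Qbar (M * 3)) (jMF_coe Qbar _) ht
  rcases lt_trichotomy (w.ord t) 0 with h | h | h
  · exact Or.inl ⟨h, (ord_eq_of_pole (by rw [natDegree_numThree, natDegree_X_pow])
      (pow_ne_zero 3 X_ne_zero) heq h).symm⟩
  · exfalso
    have hreg := FunctionField.ordGe_aeval (ordGe_of_le_ord (f := t) h.ge) (numThree Qbar)
    rw [← heq, map_pow, aeval_X] at hreg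
    have ht0 : t ≠ 0 := fun h0 => by
      have h1 := congrArg (fun z : LaurentSeries Qbar => z.coeff (-1))
        (ht.symm.trans (congrArg Subtype.val h0))
      simp only [coeffMap_coeff, LevelSq.hasLead_hauptThree.coeff_eq, ZeroMemClass.coe_zero,
        HahnSeries.coeff_zero] at h1
      simp at h1
    have hj0 : jMF Qbar (M * 3) ≠ 0 := fun h0 => by rw [h0, Place.ord_zero] at hw; omega
    have := hreg.le_ord (mul_ne_zero hj0 (pow_ne_zero _ ht0))
    rw [w.ord_mul hj0 (pow_ne_zero _ ht0), FunctionField.ord_pow, h] at this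
    omega
  · right
    refine ⟨h, ?_⟩
    obtain ⟨hP, hP'⟩ := ord_aeval_of_eval_zero_ne h (eval_numThree_zero (K := Qbar))
    rw [← heq, map_pow, aeval_X] at hP'
    have hj0 : jMF Qbar (M * 3) ≠ 0 := fun h0 => by rw [h0, Place.ord_zero] at hw; omega
    have ht0 : t ≠ 0 := fun h0 => by rw [h0, Place.ord_zero] at h; omega
    rw [w.ord_mul hj0 (pow_ne_zero _ ht0), FunctionField.ord_pow] at hP'
    push_cast at hP'
    omega

/-- Over every cusp of level `M` there is a pole of `t`. -/
theorem exists_t_pole (h3 : ¬ 3 ∣ M) {v : Place Qbar (MF Qbar M)}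
    (hv : v.ord (jMF Qbar M) < 0) :
    ∃ w : Place Qbar (MF Qbar (M * 3)),
      w.restrictAlong (upThree M) (isIntegral_of_isFunctionField _) = v ∧ w.ord t < 0 := by
  obtain ⟨w, hwv, hw3⟩ := exists_not_dvd_ramificationIndexAlong (upThree M)
    (isIntegral_of_isFunctionField _) v (m := 3) (by rw [finrankAlong_upThree h3]; norm_num)
  refine ⟨w, hwv, ?_⟩
  have h := Place.ord_restrictAlong (upThree M) (isIntegral_of_isFunctionField _) w (jMF Qbar M)
  rw [degMap_one_jMF, hwv] at h
  have he := ramificationIndexAlong_pos (upThree M) w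
  rcases ord_t_cases ht w (by rw [h]; exact mul_neg_of_pos_of_neg (by exact_mod_cast he) hv) with
    ⟨hlt, -⟩ | ⟨-, heq⟩
  · exact hlt
  · exfalso
    rw [h] at heq
    have hd : (3 : ℤ) ∣ (w.ramificationIndexAlong (upThree M) : ℤ) * v.ord (jMF Qbar M) :=
      ⟨-w.ord t, by linarith⟩
    rcases Int.prime_three.dvd_mul.1 hd with h' | h'
    · exact hw3 (Int.natCast_dvd_natCast.1 h')
    · exact not_three_dvd_ord_of_cusp h3 hv h'

/-- `t` has a zero of order prime to `3`. -/
theorem exists_t_zero (h3 : ¬ 3 ∣ M) :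
    ∃ w : Place Qbar (MF Qbar (M * 3)), 0 < w.ord t ∧ ¬ (3 : ℤ) ∣ w.ord t := by
  have hj : Transcendental Qbar (jMF Qbar (M * 3)) := transcendental_jMF Qbar (M * 3)
  have heq := equation_three (j := jMF Qbar (M * 3)) (jMF_coe Qbar _) ht
  have htr : Transcendental Qbar t := transcendental_of_equation hj
    (isCoprime_numThree (by norm_num) (by norm_num)) heq
  obtain ⟨w, hw⟩ := exists_place_ord_pos htr
  set v := w.restrictAlong (upThree M) (isIntegral_of_isFunctionField _) with hvdef
  have hwj : w.ord (jMF Qbar (M * 3)) < 0 := by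
    by_contra hge
    obtain ⟨hP, hP'⟩ := ord_aeval_of_eval_zero_ne hw (eval_numThree_zero (K := Qbar))
    rw [← heq, map_pow, aeval_X] at hP'
    have hj0 : jMF Qbar (M * 3) ≠ 0 := ne_zero_of_transcendental hj
    have ht0 : t ≠ 0 := ne_zero_of_transcendental htr
    rw [w.ord_mul hj0 (pow_ne_zero _ ht0), FunctionField.ord_pow] at hP'
    push_cast at hP'
    omega
  have h := Place.ord_restrictAlong (upThree M) (isIntegral_of_isFunctionField _) w (jMF Qbar M)
  rw [degMap_one_jMF, ← hvdef] at h
  have he := ramificationIndexAlong_pos (upThree M) w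
  have hle : w.ramificationIndexAlong (upThree M) ≤ 4 := by
    rw [← finrankAlong_upThree h3,
      ← sum_fiberAlong_ramificationIndex (upThree M) (isIntegral_of_isFunctionField _) v]
    exact Finset.single_le_sum (f := fun u => u.ramificationIndexAlong (upThree M))
      (fun _ _ => Nat.zero_le _) (Place.mem_fiberAlong.2 hvdef.symm)
  have hv : v.ord (jMF Qbar M) < 0 := by
    by_contra hge
    rw [h] at hwj
    exact absurd hwj (not_lt.2 (mul_nonneg (Int.natCast_nonneg _) (not_lt.1 hge)))
  refine ⟨w, hw, fun hd => ?_⟩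
  rcases ord_t_cases ht w hwj with ⟨hlt, -⟩ | ⟨-, heq'⟩
  · omega
  · rw [h] at heq'
    obtain ⟨k, hk⟩ := hd
    have h9 : (3 : ℤ) ∣ (w.ramificationIndexAlong (upThree M) : ℤ) := by
      refine (Int.prime_three.dvd_mul.1 ⟨-(3 * k), by rw [hk] at heq'; linarith⟩).resolve_right
        (not_three_dvd_ord_of_cusp h3 hv)
    have h9' : (9 : ℤ) ∣ (w.ramificationIndexAlong (upThree M) : ℤ) * v.ord (jMF Qbar M) :=
      ⟨-k, by rw [hk] at heq'; linarith⟩
    obtain ⟨r, hr⟩ := h9
    have hr1 : r = 1 := by omega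
    rw [hr, hr1] at h9'
    exact not_three_dvd_ord_of_cusp h3 hv (by
      obtain ⟨u, hu⟩ := h9'
      exact ⟨u, by linarith⟩)

include hs

theorem cube_up : s ^ 3 = upThreeNine M t * (s ^ 2 + 9 * s + 27) :=
  cube_nine (by rw [coe_degMap, qExpand_one_apply, ht]) hs

theorem not_mem_range (h3 : ¬ 3 ∣ M) :
    letI := algebraAlong (upThreeNine M)
    s ∉ Set.range (algebraMap (MF Qbar (M * 3)) (MF Qbar (M * 9))) := by
  rintro ⟨r, hr : upThreeNine M r = s⟩
  obtain ⟨w, hw, hw3⟩ := exists_t_zero ht h3
  have e : r ^ 3 = t * (r ^ 2 + 9 * r + 27) := (upThreeNine M).toRingHom.injective (by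
    simp only [AlgHom.toRingHom_eq_coe, RingHom.coe_coe, map_pow, map_mul, map_add, map_ofNat, hr]
    exact cube_up ht hs)
  exact hw3 (three_dvd_ord_of_cube e hw)

/-- Over every cusp of level `M` there is a pole of `s`. -/
theorem exists_s_pole (h3 : ¬ 3 ∣ M) {v : Place Qbar (MF Qbar M)}
    (hv : v.ord (jMF Qbar M) < 0) :
    ∃ u : Place Qbar (MF Qbar (M * 9)),
      u.restrictAlong (upNine M) (isIntegral_of_isFunctionField _) = v ∧ u.ord s < 0 := by
  obtain ⟨w, hwv, hw⟩ := exists_t_pole ht h3 hv
  letI := algebraAlong (upThreeNine M)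
  have hnorm : Algebra.norm (MF Qbar (M * 3)) s = -(-27 * t) := by
    refine norm_eq_of_cubic (a := -t) (b := -9 * t) (finrankAlong_upThreeNine h3)
      (not_mem_range ht hs h3) ?_
    show s ^ 3 + upThreeNine M (-t) * s ^ 2 + upThreeNine M (-9 * t) * s +
      upThreeNine M (-27 * t) = 0
    simp only [map_neg, map_mul, map_ofNat]
    linear_combination cube_up ht hs
  have hs0 : s ≠ 0 := fun h0 => not_mem_range ht hs h3 ⟨0, by rw [map_zero, h0]⟩
  have h := ord_norm_along (upThreeNine M) (isIntegral_of_isFunctionField _) w hs0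
  rw [hnorm, FunctionField.ord_neg, neg_mul, FunctionField.ord_neg,
    show (27 : MF Qbar (M * 3)) = algebraMap Qbar _ 27 by rw [map_ofNat],
    w.ord_mul ((_root_.map_ne_zero _).2 (by norm_num))
      (fun h0 => by rw [h0, Place.ord_zero] at hw; omega), ord_algebraMap, zero_add] at h
  obtain ⟨u, hu, hu0⟩ : ∃ u ∈ Place.fiberAlong (upThreeNine M) (isIntegral_of_isFunctionField _) w,
      u.ord s < 0 := by
    by_contra hno
    push Not at hno
    have := Finset.sum_nonneg hno
    omega
  refine ⟨u, ?_, hu0⟩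
  rw [Place.restrictAlong_congr (degMap_comp Qbar 1 1 1 dvd_three dvd_three_nine dvd_nine
      (mul_one 1)).symm _ (isIntegral_comp (isIntegral_of_isFunctionField _)
        (isIntegral_of_isFunctionField _)),
    restrictAlong_comp _ _ (isIntegral_of_isFunctionField _) (isIntegral_of_isFunctionField _),
    Place.mem_fiberAlong.1 hu, hwv]

set_option maxHeartbeats 800000 in
-- the statement mentions several large fields
/-- The image of the polar divisor of `s` is that of `j`. -/
theorem pushforward_polar_nine (h3 : ¬ 3 ∣ M) :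
    Divisor.pushforwardAlong (upNine M) (isIntegral_of_isFunctionField _)
        (zeroDivisor (K := Qbar) s⁻¹) = zeroDivisor (K := Qbar) (jMF Qbar M)⁻¹ := by
  have hj9 : Transcendental Qbar (jMF Qbar (M * 9)) := transcendental_jMF Qbar (M * 9)
  have hj : Transcendental Qbar (jMF Qbar M) := transcendental_jMF Qbar M
  have heq := equation_nine (j := jMF Qbar (M * 9)) (jMF_coe Qbar _) hs
  have hcop := isCoprime_nine (K := Qbar) (by norm_num)
  have htr : Transcendental Qbar s := transcendental_of_equation hj9 hcop heq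
  refine (eq_of_le_of_degree_eq (fun v => ?_) ?_).symm
  · rw [zeroDivisor_apply, v.ord_inv]
    rcases le_or_gt 0 (v.ord (jMF Qbar M)) with h | h
    · rw [max_eq_right (by omega)]
      exact pushforwardAlong_nonneg _ _ (zeroDivisor_nonneg _) v
    · rw [max_eq_left (by omega)]
      obtain ⟨u, huv, hu⟩ := exists_s_pole ht hs h3 h
      refine le_trans ?_ (le_pushforwardAlong_apply _ _ (zeroDivisor_nonneg _) huv)
      rw [zeroDivisor_apply, u.ord_inv, max_eq_left (by omega),
        ← ord_eq_of_pole (by rw [natDegree_numNine, natDegree_denNine]) denNine_ne_zero heq hu]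
      have e := Place.ord_restrictAlong (upNine M) (isIntegral_of_isFunctionField _) u (jMF Qbar M)
      rw [degMap_one_jMF, huv] at e
      rw [e]
      have he := ramificationIndexAlong_pos (upNine M) u
      have he' : (1 : ℤ) ≤ (u.ramificationIndexAlong (upNine M) : ℤ) := by exact_mod_cast he
      nlinarith
  · rw [Divisor.degree_pushforwardAlong, degree_zeroDivisor_inv hj, degree_zeroDivisor_inv htr,
      finrank_jMF]
    have h := finrank_adjoin_equation htr hcop degree_lt_numNine heq
    rw [natDegree_numNine, finrank_jMF, (psi_three h3).2] at h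
    exact_mod_cast Nat.eq_of_mul_eq_mul_left (by norm_num) h

end cusps

end FLTAgent.MazurP.Three
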