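import Fermat.Agent.JTors.HeckeChar
import Fermat.Agent.DS.Phi.One

/-!
# Orders of functions of level `L` at the points of the upper half plane
-/

set_option autoImplicit false
set_option linter.style.haveILetI false

noncomputable section

open ModularCurve AlgebraicCurve CongruenceSubgroup
open UpperHalfPlane hiding I
open scoped MatrixGroups Manifold

namespace FLTAgent.MazurP.Three

open FLTAgent.ModPoly FLTAgent.JTors

local notation "Qbar" => AlgebraicClosure ℚ

variable {L : ℕ} [NeZero L]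

variable (L) in
/-- The order of vanishing at `τ`. -/
def ordAt (τ : ℍ) (f : modularFunctionFieldBar L) : ℤ :=
  (expEmb L (diskExp L τ) (diskExp_injective L τ) f).order

theorem ordAt_zero (τ : ℍ) : ordAt L τ 0 = 0 := by simp [ordAt]

omit [NeZero L] in
theorem diskSeries_coe_ne_zero (τ : ℍ) {g : modFunRing L} (hg : g ≠ 0) :
    Genus.diskSeries τ (g : ℍ → ℂ) ≠ 0 :=
  (map_ne_zero_iff (diskExp L τ) (diskExp_injective L τ)).2 hg

theorem frac_left_ne_zero {f : modularFunctionFieldBar L} (hf : f ≠ 0) {a b : modFunRing L}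
    (hb : b ≠ 0) (h : toC L f * qL L b = qL L a) : a ≠ 0 := by
  rintro rfl
  rw [map_zero] at h
  rcases mul_eq_zero.1 h with h1 | h1
  · exact hf ((map_eq_zero _).1 h1)
  · exact hb ((map_eq_zero_iff _ qL_injective).1 h1)

theorem ordAt_add (τ : ℍ) {f : modularFunctionFieldBar L} (hf : f ≠ 0) {a b : modFunRing L}
    (hb : b ≠ 0) (h : toC L f * qL L b = qL L a) :
    ordAt L τ f + (Genus.diskSeries τ (b : ℍ → ℂ)).order =
      (Genus.diskSeries τ (a : ℍ → ℂ)).order := by
  have e := congrArg HahnSeries.order (expEmb_mul L _ (diskExp_injective L τ) h)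
  rw [diskExp_apply, diskExp_apply, HahnSeries.order_mul
    ((map_ne_zero _).2 hf) (diskSeries_coe_ne_zero τ hb)] at e
  exact e

/-- Points with the same orders on `modFunRing L` have the same orders. -/
theorem ordAt_congr {τ τ' : ℍ}
    (h : ∀ g : modFunRing L, g ≠ 0 →
      (Genus.diskSeries τ (g : ℍ → ℂ)).order = (Genus.diskSeries τ' (g : ℍ → ℂ)).order)
    (f : modularFunctionFieldBar L) : ordAt L τ f = ordAt L τ' f := by
  rcases eq_or_ne f 0 with rfl | hf
  · rw [ordAt_zero, ordAt_zero]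
  obtain ⟨a, b, hb, hab⟩ := exists_frac L f
  have h1 := ordAt_add τ hf hb hab
  have h2 := ordAt_add τ' hf hb hab
  rw [h b hb, h a (frac_left_ne_zero hf hb hab)] at h1
  omega

theorem det_sl_pos (γ : SL(2, ℤ)) : 0 < ((γ : GL (Fin 2) ℝ)).det.val := by simp

/-- Orders are invariant under `Γ₀(L)`. -/
theorem ordAt_smul {γ : SL(2, ℤ)} (hγ : γ ∈ Gamma0 L) (τ : ℍ)
    (f : modularFunctionFieldBar L) : ordAt L (γ • τ) f = ordAt L τ f := by
  refine ordAt_congr (fun g hg => ?_) f
  have h := DS.Phi.order_diskSeries_comp_smul g.2.1 (coe_ne_zero hg) (det_sl_pos γ) τ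
  simp only [← ModularGroup.sl_moeb] at h
  rw [← h]
  exact congrArg (fun u => (Genus.diskSeries τ u).order)
    (funext fun z => smul_eq_of_mem g.2 hγ z)

/-- The order of a pullback. -/
theorem ordAt_degMap {M : ℕ} [NeZero M] {d : ℕ} [NeZero d] (h : M * d ∣ L) (τ : ℍ)
    (f : modularFunctionFieldBar M) :
    ordAt L τ (Hecke.degMap Qbar d h f) = ordAt M (Periods.tRep d none • τ) f := by
  rcases eq_or_ne f 0 with rfl | hf
  · rw [map_zero, ordAt_zero, ordAt_zero]
  set F : modularFunctionFieldBar L := Hecke.degMap Qbar d h f with hF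
  have hF0 : F ≠ 0 := (map_ne_zero (Hecke.degMap Qbar d h)).2 hf
  obtain ⟨a, b, hb, hab⟩ := exists_frac M f
  obtain ⟨a', c', hc', hac⟩ := exists_frac L F
  have hmd : ∀ g : modFunRing M, MDiff fun z : ℍ => (g : ℍ → ℂ) (Periods.tRep d none • z) :=
    fun g => g.2.1.comp (UpperHalfPlane.mdifferentiable_smul (Periods.tRep_det_pos d none))
  have hser : qL L a' * qExpand ℂ d (qL M b) = qExpand ℂ d (qL M a) * qL L c' := by
    rw [← hac, ← hab, map_mul, toC_apply L, toC_apply M,
      show (F : LaurentSeries Qbar) = qExpand Qbar d (f : LaurentSeries Qbar) from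
        Hecke.coe_degMap _ d h f, coeffMap_qExpand]
    ring
  have hfun := eq_of_expands
    (f := (a' : ℍ → ℂ) * fun z : ℍ => (b : ℍ → ℂ) (Periods.tRep d none • z))
    (g := (fun z : ℍ => (a : ℍ → ℂ) (Periods.tRep d none • z)) * (c' : ℍ → ℂ))
    (a'.2.1.mul (hmd b)) ((hmd a).mul c'.2.1)
    ((expands_qL a').mul (expands_comp_none b))
    (hser ▸ (expands_comp_none a).mul (expands_qL c'))
  have e := congrArg (fun u => (Genus.diskSeries τ u).order) hfun
  have ha : a ≠ 0 := frac_left_ne_zero hf hb hab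
  have ha' : a' ≠ 0 := frac_left_ne_zero hF0 hc' hac
  have hne : ∀ g : modFunRing M, g ≠ 0 →
      Genus.diskSeries τ (fun z : ℍ => (g : ℍ → ℂ) (Periods.tRep d none • z)) ≠ 0 :=
    fun g hg e0 => coe_ne_zero hg (funext fun z => by
      simpa using congrFun (Genus.eq_zero_of_diskSeries_eq_zero τ (hmd g) e0)
        ((Periods.tRep d none)⁻¹ • z))
  simp only [Genus.diskSeries_mul τ a'.2.1 (hmd b), Genus.diskSeries_mul τ (hmd a) c'.2.1,
    HahnSeries.order_mul (diskSeries_coe_ne_zero τ ha') (hne b hb),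
    HahnSeries.order_mul (hne a ha) (diskSeries_coe_ne_zero τ hc'),
    DS.Phi.order_diskSeries_comp_smul b.2.1 (coe_ne_zero hb) (Periods.tRep_det_pos d none),
    DS.Phi.order_diskSeries_comp_smul a.2.1 (coe_ne_zero ha) (Periods.tRep_det_pos d none)] at e
  have h1 := ordAt_add τ hF0 hc' hac
  have h2 := ordAt_add (Periods.tRep d none • τ) hf hb hab
  omega

end FLTAgent.MazurP.Three
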