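import Fermat.Agent.Genus.Export
import Fermat.Agent.JTors.PlaceDiv
import Fermat.Agent.MazurP.Three.OrdAt
import Fermat.Agent.Hecke.LevelField
import Fermat.Agent.Hecke.Final

/-!
# The places over `j = 0` and the elliptic points of order three
-/

set_option autoImplicit false
set_option linter.style.haveILetI false
set_option synthInstance.maxHeartbeats 100000

noncomputable section

open ModularCurve AlgebraicCurve CongruenceSubgroup
open UpperHalfPlane hiding I
open scoped MatrixGroups Manifold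

namespace FLTAgent.MazurP.Three

open FLTAgent.ModPoly FLTAgent.JTors

local notation "Qbar" => AlgebraicClosure ℚ

variable {L : ℕ} [NeZero L]

/-- The embedding given by an expansion takes quotients to quotients. -/
theorem fieldEmb_mul_eq {χ : modFunRing L →ₐ[ℂ] LaurentSeries ℂ} (hχ : Function.Injective χ)
    {y : modularFunctionFieldC Qbar L} {a b : modFunRing L}
    (h : coeffMap embC (y : LaurentSeries Qbar) * qL L b = qL L a) :
    Genus.fieldEmb embC χ hχ y * χ b = χ a := by
  obtain ⟨x₁, x₂, rfl⟩ := Genus.exists_div_holoPart embC y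
  rcases eq_or_ne (x₂ : modularFunctionFieldC Qbar L) 0 with h0 | h0
  · rw [h0, div_zero, ZeroMemClass.coe_zero, map_zero, zero_mul] at h
    rw [h0, div_zero, map_zero, zero_mul, (map_eq_zero_iff _ qL_injective).1 h.symm, map_zero]
  have h1 := Genus.qL_holoFun embC x₁
  have h2 := Genus.qL_holoFun embC x₂
  have h2' : qL L (Genus.holoFun embC x₂) ≠ 0 := by
    rw [h2]
    exact (map_ne_zero _).2 fun e => h0 (Subtype.ext e)
  rw [IntermediateField.coe_div, map_div₀, ← h1, ← h2] at h
  have hab : Genus.holoFun embC x₁ * b = a * Genus.holoFun embC x₂ := qL_injective (by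
    rw [map_mul, map_mul, ← h]
    field_simp)
  have e := congrArg χ hab
  rw [map_mul, map_mul, ← Genus.fieldEmb_eq embC χ hχ h1, ← Genus.fieldEmb_eq embC χ hχ h2] at e
  rw [map_div₀, div_mul_eq_mul_div, div_eq_iff ((map_ne_zero _).2 h0)]
  exact e

theorem exists_point_of_eq {E : IntermediateField Qbar (LaurentSeries Qbar)}
    (hE : E = modularFunctionFieldC Qbar L) (j : E) (hj : (j : LaurentSeries Qbar) = jqModC Qbar)
    {v : Place Qbar E} (hv : 0 < v.ord j) :
    ∃ (g : SL(2, ℤ)) (k : ℤ), 0 < k ∧ k * v.ord j = 3 ∧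
      (v.ord j = 1 → g * (ModularGroup.S * ModularGroup.T) * g⁻¹ ∈ Gamma0 L) ∧
      ∀ (y : E) (a b : modFunRing L), y ≠ 0 → b ≠ 0 →
        coeffMap embC (y : LaurentSeries Qbar) * qL L b = qL L a →
        k * v.ord y + (Genus.diskSeries (g • UpperHalfPlane.ρ) (b : ℍ → ℂ)).order =
          (Genus.diskSeries (g • UpperHalfPlane.ρ) (a : ℍ → ℂ)).order := by
  subst hE
  obtain rfl : j = Genus.jEl Qbar L := Subtype.ext hj
  have hz : jFun UpperHalfPlane.ρ = embC (0 : Qbar) := by rw [map_zero, Genus.jFun_rho]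
  have hm : Genus.jMult (embC (0 : Qbar)) = 3 := by simp [Genus.jMult]
  set R := Genus.pointData (N := L) embC (0 : Qbar) UpperHalfPlane.ρ hz _ Genus.rho_fix
    (by rw [hm]; exact Genus.isPrimitiveRoot_rot_ST) with hR
  have hj0 : Genus.jEl Qbar L - algebraMap Qbar (modularFunctionFieldC Qbar L) 0 =
      Genus.jEl Qbar L := by rw [map_zero, sub_zero]
  obtain ⟨q, rfl⟩ := R.exists_place_eq Genus.hasResidueK_modular (Genus.sum_ord_le_card 0)
    (v := v) (by rwa [hj0])
  refine ⟨q.out⁻¹, R.k q, (R.induces q).1, ?_, fun h1 => ?_, fun y a b hy hb hab => ?_⟩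
  · have h := R.k_mul_ord q
    rw [congrArg (R.place q).ord hj0] at h
    rw [h]
    exact_mod_cast hm
  · have hq := (R.ord_eq_one_iff Genus.hasResidueK_modular q).1
      ((congrArg (R.place q).ord hj0).trans h1)
    rw [inv_inv]
    exact smul_fixed_inv hq
  · have e := congrArg HahnSeries.order
      (fieldEmb_mul_eq (Genus.pointHom_injective UpperHalfPlane.ρ q) hab)
    rw [HahnSeries.order_mul ((map_ne_zero _).2 hy)
      ((map_ne_zero_iff _ (Genus.pointHom_injective _ q)).2 hb),
      show Genus.fieldEmb embC _ (Genus.pointHom_injective UpperHalfPlane.ρ q) = R.Φ q from rfl,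
      (R.induces q).2 y, Genus.pointHom_apply, Genus.pointHom_apply] at e
    have ha : a ≠ 0 := by
      rintro rfl
      rw [map_zero] at hab
      rcases mul_eq_zero.1 hab with h1 | h1
      · exact hy (Subtype.ext ((map_eq_zero _).1 h1))
      · exact hb ((map_eq_zero_iff _ qL_injective).1 h1)
    have hc : ∀ c : modFunRing L, c ≠ 0 →
        (Genus.diskSeries UpperHalfPlane.ρ (Genus.cosetFun q (c : ℍ → ℂ))).order =
          (Genus.diskSeries (q.out⁻¹ • UpperHalfPlane.ρ) (c : ℍ → ℂ)).order := fun c hc => by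
      have h := DS.Phi.order_diskSeries_comp_smul c.2.1 (coe_ne_zero hc) (det_sl_pos q.out⁻¹)
        UpperHalfPlane.ρ
      simp only [← ModularGroup.sl_moeb] at h
      exact h
    rw [hc b hb, hc a ha] at e
    exact e

/-- A place over `j = 0` is a point `g ρ`; if it is unramified, `g (S T) g⁻¹` is in `Γ₀(L)`. -/
theorem exists_point {v : Place Qbar (modularFunctionFieldBar L)}
    (hv : 0 < v.ord (Hecke.jMF Qbar L)) :
    ∃ (g : SL(2, ℤ)) (k : ℤ), 0 < k ∧ k * v.ord (Hecke.jMF Qbar L) = 3 ∧
      (v.ord (Hecke.jMF Qbar L) = 1 →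
        g * (ModularGroup.S * ModularGroup.T) * g⁻¹ ∈ Gamma0 L) ∧
      ∀ f, ordAt L (g • UpperHalfPlane.ρ) f = k * v.ord f := by
  obtain ⟨g, k, hk, hk3, hfix, h⟩ := exists_point_of_eq (modularFunctionFieldBar_eq L)
    (Hecke.jMF Qbar L) rfl hv
  refine ⟨g, k, hk, hk3, hfix, fun f => ?_⟩
  rcases eq_or_ne f 0 with rfl | hf
  · rw [ordAt_zero, v.ord_zero, mul_zero]
  obtain ⟨a, b, hb, hab⟩ := exists_frac L f
  have h1 := ordAt_add (g • UpperHalfPlane.ρ) hf hb hab
  have h2 := h f a b hf hb hab
  omega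

/-- Two places are equal when positive multiples of their orders agree. -/
theorem place_eq_of_mul_ord {K F : Type*} [Field K] [Field F] [Algebra K F] {v v' : Place K F}
    {k k' : ℤ} (hk : 0 < k) (hk' : 0 < k') (h : ∀ f, k * v.ord f = k' * v'.ord f) : v = v' := by
  refine Place.ext (SetLike.ext fun f => ?_)
  rw [Genus.mem_iff_ord_nonneg, Genus.mem_iff_ord_nonneg]
  constructor <;> intro h0
  · exact nonneg_of_mul_nonneg_right (h f ▸ mul_nonneg hk.le h0) hk'
  · exact nonneg_of_mul_nonneg_right ((h f).symm ▸ mul_nonneg hk'.le h0) hk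

end FLTAgent.MazurP.Three
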