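import Fermat.Agent.Genus.EllipticPts
import Fermat.Agent.ModPoly.Orbit
import Fermat.Agent.JTors.TRep

/-!
# An elliptic point of order three of level `M l` multiplied by `l`

With `g S T g⁻¹ ∈ Γ₀(M l)`, the point `l (g ρ)` is `Γ₀(M)`-equivalent to `g ρ`: both are fixed by
elements of `Γ₀(M)` of trace `1`, with positive lower left and equal lower right entry.
-/

set_option autoImplicit false
set_option linter.style.haveILetI false

noncomputable section

open CongruenceSubgroup Complex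
open UpperHalfPlane hiding I
open scoped MatrixGroups

namespace FLTAgent.MazurP.Three

open FLTAgent.ModPoly

theorem det_entries (g : SL(2, ℤ)) : g 0 0 * g 1 1 - g 0 1 * g 1 0 = 1 := by
  rw [← Matrix.det_fin_two]; exact g.2

theorem conj_entries (g h : SL(2, ℤ)) :
    (g * h * g⁻¹) 0 0 + (g * h * g⁻¹) 1 1 = h 0 0 + h 1 1 ∧
      (g * h * g⁻¹) 1 0 =
        h 1 0 * g 1 1 ^ 2 + (h 0 0 - h 1 1) * (g 1 0 * g 1 1) - h 0 1 * g 1 0 ^ 2 := by
  simp only [Matrix.SpecialLinearGroup.coe_mul, Matrix.SpecialLinearGroup.coe_inv,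
    Matrix.adjugate_fin_two, Matrix.mul_apply, Fin.sum_univ_two, Matrix.of_apply,
    Matrix.cons_val', Matrix.cons_val_zero, Matrix.cons_val_one, Matrix.cons_val_fin_one]
  exact ⟨by linear_combination (h 0 0 + h 1 1) * det_entries g, by ring⟩

theorem quad_pos (g : SL(2, ℤ)) : 0 < g 1 1 ^ 2 - g 1 0 * g 1 1 + g 1 0 ^ 2 := by
  rcases eq_or_ne (g 1 0) 0 with h | h
  · have := det_entries g
    have hv : g 1 1 ≠ 0 := fun hv => by rw [h, hv] at this; simp at this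
    rw [h]
    simpa using pow_two_pos_of_ne_zero hv
  · nlinarith [sq_nonneg (2 * g 1 1 - g 1 0), pow_two_pos_of_ne_zero h]

theorem conjST_entries (g : SL(2, ℤ)) :
    (g * (ModularGroup.S * ModularGroup.T) * g⁻¹) 0 0 +
        (g * (ModularGroup.S * ModularGroup.T) * g⁻¹) 1 1 = 1 ∧
      0 < (g * (ModularGroup.S * ModularGroup.T) * g⁻¹) 1 0 := by
  obtain ⟨h1, h2⟩ := conj_entries g (ModularGroup.S * ModularGroup.T)
  rw [h1, h2, Genus.coe_S_mul_T]
  have := quad_pos g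
  constructor
  · norm_num
  · norm_num; nlinarith

/-- An elliptic element of `Γ₀(M)` and its lower right entry determine the coset of `g`. -/
theorem mul_inv_mem_of_conj {M : ℕ} {g₁ g₂ : SL(2, ℤ)}
    (h₁ : g₁ * (ModularGroup.S * ModularGroup.T) * g₁⁻¹ ∈ Gamma0 M)
    (h₂ : g₂ * (ModularGroup.S * ModularGroup.T) * g₂⁻¹ ∈ Gamma0 M)
    (hd : ((g₁ * (ModularGroup.S * ModularGroup.T) * g₁⁻¹) 1 1 : ZMod M) =
      ((g₂ * (ModularGroup.S * ModularGroup.T) * g₂⁻¹) 1 1 : ZMod M)) :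
    g₁ * g₂⁻¹ ∈ Gamma0 M := by
  have key : ∀ g : SL(2, ℤ), g * (ModularGroup.S * ModularGroup.T) * g⁻¹ ∈ Gamma0 M →
      (g 1 1 : ZMod M) =
        ((g * (ModularGroup.S * ModularGroup.T) * g⁻¹) 1 1 : ZMod M) * (g 1 0 : ZMod M) := by
    intro g hg
    have e : g 1 1 = (g * (ModularGroup.S * ModularGroup.T) * g⁻¹) 1 1 * g 1 0 +
        g 0 0 * (g * (ModularGroup.S * ModularGroup.T) * g⁻¹) 1 0 := by
      simp only [Matrix.SpecialLinearGroup.coe_mul, Matrix.SpecialLinearGroup.coe_inv,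
        Matrix.adjugate_fin_two, ModularGroup.coe_S, ModularGroup.coe_T, Matrix.mul_apply,
        Fin.sum_univ_two, Matrix.of_apply, Matrix.cons_val', Matrix.cons_val_zero,
        Matrix.cons_val_one, Matrix.cons_val_fin_one]
      linear_combination -g 1 1 * det_entries g
    have e' := congrArg (fun x : ℤ => (x : ZMod M)) e
    push_cast at e'
    rwa [Gamma0_mem.1 hg, mul_zero, add_zero] at e'
  rw [Gamma0_mem]
  simp only [Matrix.SpecialLinearGroup.coe_mul, Matrix.SpecialLinearGroup.coe_inv,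
    Matrix.adjugate_fin_two, Matrix.mul_apply, Fin.sum_univ_two, Matrix.of_apply,
    Matrix.cons_val', Matrix.cons_val_zero, Matrix.cons_val_one, Matrix.cons_val_fin_one]
  push_cast
  rw [key g₁ h₁, key g₂ h₂, hd]
  ring

theorem jFun_eq_zero_of_fixed {γ : SL(2, ℤ)} {w : ℍ} (htr : γ 0 0 + γ 1 1 = 1)
    (hw : γ • w = w) : jFun w = 0 := by
  have hden := Genus.denom_int_ne_zero γ w
  have hnum : (γ 0 0 : ℂ) * w + γ 0 1 = w * ((γ 1 0 : ℂ) * w + γ 1 1) := by
    have h := congrArg (fun u : ℍ => (u : ℂ)) hw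
    simp only [UpperHalfPlane.coe_specialLinearGroup_apply] at h
    simp at h
    rw [div_eq_iff (by simpa [mul_comm] using hden)] at h
    linear_combination h
  set lam : ℂ := (γ 1 0 : ℂ) * w + γ 1 1 with hlam
  have htr' : (γ 0 0 : ℂ) + γ 1 1 = 1 := by exact_mod_cast htr
  have hdet : (γ 0 0 : ℂ) * γ 1 1 - γ 0 1 * γ 1 0 = 1 := by exact_mod_cast det_entries γ
  have hq : lam ^ 2 - lam + 1 = 0 := by
    rw [hlam] at hnum ⊢
    linear_combination -(γ 1 0 : ℂ) * hnum - hdet + ((γ 1 0 : ℂ) * w + γ 1 1) * htr'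
  have h := Genus.slash_fix ModularForm.E₄ hw
  rw [show denom γ w = lam by rw [ModularGroup.denom_apply], zpow_neg, zpow_ofNat] at h
  have h4 : lam ^ 4 = -lam := by linear_combination (lam ^ 2 + lam) * hq
  rw [h4] at h
  by_contra hne
  have hE : ModularForm.E₄ w ≠ 0 := fun h0 => hne (by simp [jFun, h0])
  have h5 : (-lam)⁻¹ = 1 := mul_left_cancel₀ hE (by rw [h, mul_one])
  rw [inv_eq_one] at h5
  rw [show lam = -1 by linear_combination -h5] at hq
  norm_num at hq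

/-- The elements of trace one fixing `ρ`. -/
theorem eq_ST_of_fixed {h : SL(2, ℤ)} (htr : h 0 0 + h 1 1 = 1)
    (hfix : h • UpperHalfPlane.ρ = UpperHalfPlane.ρ) :
    h 0 1 = -h 1 0 ∧ h 1 1 = h 0 0 + h 1 0 ∧
      (0 < h 1 0 → h = ModularGroup.S * ModularGroup.T) := by
  have hden := Genus.denom_int_ne_zero h UpperHalfPlane.ρ
  have e := congrArg (fun u : ℍ => (u : ℂ)) hfix
  simp only [UpperHalfPlane.coe_specialLinearGroup_apply] at e
  simp at e
  rw [div_eq_iff (by simpa [mul_comm] using hden)] at e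
  have e' : ((h 0 0 + h 1 0 - h 1 1 : ℤ) : ℂ) * (UpperHalfPlane.ρ : ℂ) +
      ((h 0 1 + h 1 0 : ℤ) : ℂ) = 0 := by
    push_cast
    linear_combination e + (h 1 0 : ℂ) * UpperHalfPlane.ρ_sq
  obtain ⟨h1, h2⟩ := int_eq_zero_of_lin UpperHalfPlane.ρ e'
  refine ⟨by omega, by omega, fun hc => ?_⟩
  have hdet := det_entries h
  rw [show h 0 1 = -h 1 0 by omega, show h 1 1 = h 0 0 + h 1 0 by omega] at hdet
  have hc1 : h 1 0 = 1 - 2 * h 0 0 := by omega
  rw [hc1] at hdet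
  have ha : h 0 0 = 0 := by
    have h3 : h 0 0 * (h 0 0 - 1) = 0 := by linarith
    rcases mul_eq_zero.1 h3 with h4 | h4
    · exact h4
    · omega
  refine Matrix.SpecialLinearGroup.ext _ _ fun i j => ?_
  rw [Genus.coe_S_mul_T]
  fin_cases i <;> fin_cases j <;> simp <;> omega

/-- `l (g ρ)` is `Γ₀(M)`-equivalent to `g ρ`. -/
theorem exists_shift {M l : ℕ} [NeZero l] {g : SL(2, ℤ)}
    (hg : g * (ModularGroup.S * ModularGroup.T) * g⁻¹ ∈ Gamma0 (M * l)) :
    ∃ h : SL(2, ℤ), Periods.tRep l none • g • UpperHalfPlane.ρ = h • UpperHalfPlane.ρ ∧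
      h * g⁻¹ ∈ Gamma0 M := by
  obtain ⟨htr, hpos⟩ := conjST_entries g
  set γ := g * (ModularGroup.S * ModularGroup.T) * g⁻¹ with hγ
  set τ := g • UpperHalfPlane.ρ with hτ
  have hfix : γ • τ = τ := by
    rw [hγ, hτ, ← mul_smul, inv_mul_cancel_right, mul_smul, Genus.rho_fix]
  obtain ⟨c, hc⟩ : ((M * l : ℕ) : ℤ) ∣ γ 1 0 :=
    (ZMod.intCast_zmod_eq_zero_iff_dvd _ _).1 (Gamma0_mem.1 hg)
  push_cast at hc
  let γ' : SL(2, ℤ) := ⟨!![γ 0 0, (l : ℤ) * γ 0 1; (M : ℤ) * c, γ 1 1], by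
    rw [Matrix.det_fin_two_of]
    linear_combination det_entries γ + γ 0 1 * hc⟩
  have hγ'0 : γ' ∈ Gamma0 M := by
    rw [Gamma0_mem, ZMod.intCast_zmod_eq_zero_iff_dvd]
    exact ⟨c, rfl⟩
  have hγ'fix : γ' • (Periods.tRep l none • τ) = Periods.tRep l none • τ := by
    refine UpperHalfPlane.ext ?_
    have hd := Genus.denom_int_ne_zero γ τ
    have hn : (γ 0 0 : ℂ) * τ + γ 0 1 = τ * ((γ 1 0 : ℂ) * τ + γ 1 1) := by
      have h := congrArg (fun u : ℍ => (u : ℂ)) hfix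
      simp only [UpperHalfPlane.coe_specialLinearGroup_apply] at h
      simp at h
      rw [div_eq_iff (by simpa [mul_comm] using hd)] at h
      linear_combination h
    have hc' : (γ 1 0 : ℂ) = (M : ℂ) * l * c := by exact_mod_cast hc
    rw [UpperHalfPlane.coe_specialLinearGroup_apply, JTors.coe_tRep_none_smul (NeZero.ne l)]
    simp only [algebraMap_int_eq, eq_intCast, Complex.ofReal_intCast]
    show ((γ 0 0 : ℂ) * ((l : ℂ) * τ) + (((l : ℤ) * γ 0 1 : ℤ) : ℂ)) /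
      ((((M : ℤ) * c : ℤ) : ℂ) * ((l : ℂ) * τ) + (γ 1 1 : ℂ)) = (l : ℂ) * τ
    push_cast
    rw [div_eq_iff (by intro h0; exact hd (by linear_combination h0 + (τ : ℂ) * hc'))]
    linear_combination (l : ℂ) * hn + (l : ℂ) * τ ^ 2 * hc'
  obtain ⟨h, hh⟩ := jFun_eq_iff.1
    ((jFun_eq_zero_of_fixed (w := Periods.tRep l none • τ) (show γ' 0 0 + γ' 1 1 = 1 from htr)
      hγ'fix).trans Genus.jFun_rho.symm)
  refine ⟨h, hh, ?_⟩
  set k := h⁻¹ * γ' * h with hk
  have hconj : γ' = h * k * h⁻¹ := by rw [hk]; group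
  obtain ⟨e1, e2⟩ := conj_entries h k
  rw [← hconj] at e1 e2
  have hkfix : k • UpperHalfPlane.ρ = UpperHalfPlane.ρ := by
    rw [hk, mul_smul, mul_smul, ← hh, hγ'fix, hh, inv_smul_smul]
  obtain ⟨k01, k11, kST⟩ := eq_ST_of_fixed (e1.symm.trans htr) hkfix
  rw [k01, k11] at e2
  have hkpos : 0 < k 1 0 := by
    have hl : (0 : ℤ) < l := by exact_mod_cast NeZero.pos l
    have h1 : (0 : ℤ) < γ' 1 0 := by
      show (0 : ℤ) < (M : ℤ) * c
      rw [hc] at hpos
      exact pos_of_mul_pos_left (by rwa [mul_right_comm] at hpos) hl.le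
    have h2 : γ' 1 0 = k 1 0 * (h 1 1 ^ 2 - h 1 0 * h 1 1 + h 1 0 ^ 2) := by rw [e2]; ring
    rw [h2] at h1
    exact pos_of_mul_pos_left h1 (quad_pos h).le
  rw [kST hkpos] at hconj
  refine mul_inv_mem_of_conj (hconj ▸ hγ'0) ?_ ?_
  · rw [← hγ, Gamma0_mem, ZMod.intCast_zmod_eq_zero_iff_dvd, hc, mul_assoc]
    exact dvd_mul_right _ _
  · rw [← hconj, ← hγ]
    rfl

end FLTAgent.MazurP.Three
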