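import Fermat.Agent.GoodRed.Congruence
import Fermat.Agent.LevelLower.HeckeInst
import Fermat.Agent.JTors.PushTop
import Fermat.Agent.MazurP.Three.EllipticPoint
import Fermat.Agent.MazurP.Three.EllipticShift
import Fermat.Agent.Semistable.CountLift

/-!
# The Hecke correspondence at an elliptic point of order three

Modulo `3` the correspondence `T l` multiplies an elliptic point of order three by `l + 1`.
-/

set_option autoImplicit false
set_option linter.style.haveILetI false
set_option synthInstance.maxHeartbeats 100000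

noncomputable section

open ModularCurve AlgebraicCurve CongruenceSubgroup
open UpperHalfPlane hiding I
open scoped MatrixGroups

namespace FLTAgent.MazurP.Three

open FLTAgent.LevelLower FLTAgent.Semistable FLTAgent.Hecke FLTAgent.FunctionField

local notation "Qbar" => AlgebraicClosure ℚ

theorem ramificationIndexAlong_pos_of_isIntegral {K F F' : Type*} [Field K] [Field F] [Field F'] [Algebra K F]
    [Algebra K F'] (φ : F →ₐ[K] F') (hφ : φ.toRingHom.IsIntegral) (W : Place K F') :
    0 < W.ramificationIndexAlong φ := by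
  letI := algebraAlong φ
  haveI := isIntegral_along φ hφ
  exact W.ramificationIndex_pos (F := F)

/-- Over an elliptic point of order three, a place of level `M l` has ramification index `3` or
lies over the same point. -/
theorem dvd_or_restrictAlong_eq {M l : ℕ} [NeZero M] [NeZero l] (hl : l.Prime) (hlM : ¬ l ∣ M)
    {P : Place Qbar (modularFunctionFieldBar M)} (hP : P.ord (jMF Qbar M) = 1)
    (hα : HeckeAlphaBarIntegral Qbar M l) (hβ : HeckeBetaBarIntegral Qbar M l)
    (W : Place Qbar (Hecke.MF Qbar (M * l)))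
    (hW : W.restrictAlong (heckeBetaBar Qbar M l) hβ = P) :
    (3 : ℤ) ∣ W.ramificationIndexAlong (heckeBetaBar Qbar M l) ∨
      W.restrictAlong (heckeAlphaBar Qbar M l) hα = P := by
  have : NeZero (M * l) := ⟨mul_ne_zero (NeZero.ne M) (NeZero.ne l)⟩
  have hα' : (heckeAlphaBar Qbar M l).toRingHom.IsIntegral := hα
  have hβ' : (heckeBetaBar Qbar M l).toRingHom.IsIntegral := hβ
  have eα : heckeAlphaBar Qbar M l = alphaMap Qbar M l := heckeAlphaBar_eq_degMap Qbar M l
  have eβ : heckeBetaBar Qbar M l = betaMap Qbar M l := heckeBetaBar_eq_degMap Qbar M l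
  obtain ⟨w, hwα, hwβ, -⟩ := exists_swap Qbar M l hl hlM
  have hw : w.toAlgHom.toRingHom.IsIntegral :=
    RingHom.isIntegral_of_surjective _ w.surjective
  set W' := W.restrictAlong w.toAlgHom hw
  set e := W.ramificationIndexAlong (heckeBetaBar Qbar M l)
  have hβP : ∀ f, W.ord (betaMap Qbar M l f) = e * P.ord f := fun f => by
    rw [← eβ, Place.ord_restrictAlong _ hβ' W f, hW]
  have hw1 : ∀ f, W.ord (w f) = W'.ord f := by
    obtain ⟨π, -, hπ⟩ := Genus.exists_ord_eq_one W
    have h0 : ∀ f, W.ord (w f) =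
        W.ramificationIndexAlong w.toAlgHom * W'.ord f := fun f =>
      Place.ord_restrictAlong w.toAlgHom hw W f
    have h1 := h0 (w.symm π)
    rw [w.apply_symm_apply, hπ] at h1
    intro f
    rw [h0 f, Int.eq_one_of_mul_eq_one_right (Int.natCast_nonneg _) h1.symm, one_mul]
  have hjα : jMF Qbar (M * l) = alphaMap Qbar M l (jMF Qbar M) :=
    (Subtype.ext (coe_alphaMap Qbar M l _)).symm
  have hje : W'.ord (jMF Qbar (M * l)) = e := by
    rw [hjα, ← hw1, hwα, hβP, hP, mul_one]
  have he : 0 < (e : ℤ) := by exact_mod_cast ramificationIndexAlong_pos_of_isIntegral _ hβ' W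
  obtain ⟨g, k, hk, hk3, hfix, hord⟩ := exists_point (v := W') (hje.symm ▸ he)
  rw [hje] at hk3
  obtain ⟨k', rfl⟩ := Int.eq_ofNat_of_zero_le hk.le
  have h3 : k' * e = 3 := by exact_mod_cast hk3
  rcases (Nat.dvd_prime Nat.prime_three).1 (Dvd.intro_left k' h3) with he1 | he3
  swap
  · exact Or.inl (by rw [he3]; norm_num)
  refine Or.inr ?_
  have hk' : k' = 3 := by rw [he1, mul_one] at h3; exact h3
  have hg := hfix (by rw [hje, he1]; rfl)
  obtain ⟨h, hh, hmem⟩ := exists_shift hg
  have hgM : ∀ f, ordAt M (g • UpperHalfPlane.ρ) f = 3 * P.ord f := fun f => by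
    have e1 := ordAt_degMap (L := M * l) (d := 1) (by rw [mul_one]; exact dvd_mul_right M l)
      (g • UpperHalfPlane.ρ) f
    rw [JTors.tRep_one_none_smul] at e1
    rw [← e1, hord, show degMap Qbar 1 _ f = alphaMap Qbar M l f from rfl, ← hw1, hwα, hβP, he1,
      hk']
    push_cast
    ring
  have hlg : ∀ f, ordAt M (g • UpperHalfPlane.ρ) f =
      3 * (W.ramificationIndexAlong (heckeAlphaBar Qbar M l) *
        (W.restrictAlong (heckeAlphaBar Qbar M l) hα').ord f) := fun f => by
    have e1 := ordAt_degMap (L := M * l) (d := l) dvd_rfl (g • UpperHalfPlane.ρ) f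
    rw [hh, show h • UpperHalfPlane.ρ = (h * g⁻¹) • g • UpperHalfPlane.ρ by
      rw [← mul_smul, inv_mul_cancel_right], ordAt_smul hmem] at e1
    rw [← e1, hord, show degMap Qbar l _ f = betaMap Qbar M l f from rfl, ← hw1, hwβ, ← eα,
      Place.ord_restrictAlong _ hα' W f, hk']
    push_cast
    rfl
  have hpos : 0 < (W.ramificationIndexAlong (heckeAlphaBar Qbar M l) : ℤ) := by
    exact_mod_cast ramificationIndexAlong_pos_of_isIntegral _ hα' W
  refine place_eq_of_mul_ord (k := 3 * W.ramificationIndexAlong (heckeAlphaBar Qbar M l))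
    (k' := 3) (mul_pos three_pos hpos) three_pos fun f => ?_
  rw [mul_assoc, ← hlg, hgM]

/-- Modulo `3`, `T l` multiplies an elliptic point of order three by `l + 1`. -/
theorem dvd_heckeDiv_single_sub {M l : ℕ} [NeZero M] [NeZero l] (hl : l.Prime) (hlM : ¬ l ∣ M)
    [HasPrincipalDivisors Qbar (Hecke.MF Qbar (M * l))]
    (P : Place Qbar (modularFunctionFieldBar M)) (hP : P.ord (jMF Qbar M) = 1)
    (v : Place Qbar (modularFunctionFieldBar M)) :
    (3 : ℤ) ∣ (heckeDiv M l (Finsupp.single P 1) - (l + 1) • Finsupp.single P (1 : ℤ)) v := by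
  classical
  have : Fact l.Prime := ⟨hl⟩
  have : NeZero (M * l) := ⟨mul_ne_zero (NeZero.ne M) (NeZero.ne l)⟩
  have : IsFunctionField Qbar (Hecke.MF Qbar (M * l)) := isFunctionField_level Qbar _
  have hα := alphaBarIntegral_of_facts (levelFacts Qbar) M l
  have hβ := betaBarIntegral_of_facts (levelFacts Qbar) M l
  have hβ' : (heckeBetaBar Qbar M l).toRingHom.IsIntegral := hβ
  have hsum : ((∑ W ∈ Place.fiberAlong (heckeBetaBar Qbar M l) hβ' P,
      W.ramificationIndexAlong (heckeBetaBar Qbar M l) : ℕ) : ℤ) = ((l + 1 : ℕ) : ℤ) := by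
    rw [sum_fiberAlong_ramificationIndex, GoodRed.finrank_beta hlM]
  rw [heckeDiv, heckeDivBar_single M l _ _ (fun W => deg_eq_one W), Finsupp.sub_apply,
    Finsupp.finsetSum_apply, Finsupp.smul_apply, nsmul_eq_mul, ← hsum, Nat.cast_sum,
    Finset.sum_mul, ← Finset.sum_sub_distrib]
  refine Finset.dvd_sum fun W hW => ?_
  rcases dvd_or_restrictAlong_eq hl hlM hP hα hβ W (Place.mem_fiberAlong.1 hW) with h | h
  · refine dvd_sub ?_ (dvd_mul_of_dvd_left h _)
    rw [Finsupp.single_apply, one_mul]
    split_ifs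
    exacts [h, dvd_zero _]
  · rw [h, one_mul, Finsupp.single_apply, Finsupp.single_apply]
    split_ifs <;> simp

end FLTAgent.MazurP.Three
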