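import Fermat.Agent.MazurP.Three.Cusp
import Fermat.Agent.MazurP.Three.Elliptic
import Fermat.Agent.LevelLower.AuxMap
import Fermat.Agent.GoodRed.HeckeKernel

/-!
# Divisibility by `3` descends from level `9 M` in characteristic `2` for eigenfunctions

Where some ramification index is prime to `3` it descends directly: off `0` and the cusps, at the
cusps, and over `0` except at the images of elliptic points, where the Hecke eigenvalue decides.
-/

set_option autoImplicit false
set_option linter.style.haveILetI false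
set_option linter.unusedSectionVars false
set_option synthInstance.maxHeartbeats 100000

noncomputable section

open ModularCurve AlgebraicCurve IsLocalRing Polynomial
open scoped IntermediateField

namespace FLTAgent.MazurP.Three

open FLTAgent.GoodRed FLTAgent.GoodRed.RedDatum FLTAgent.GoodRed.SmallPrime FLTAgent.Semistable
  FLTAgent.FunctionField FLTAgent.Genus FLTAgent.Hecke FLTAgent.LevelLower

local instance (priority := high) instAlgebraSubDescendThree {K L : Type*} [Field K] [Field L]
    [Algebra K L] (E : IntermediateField K L) : Algebra K E :=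
  SubalgebraClass.toAlgebra E

local notation "Qbar" => AlgebraicClosure ℚ

theorem ord_dvd_three_of_eq {M : ℕ} [NeZero M] {E : IntermediateField Qbar (LaurentSeries Qbar)}
    (hE : E = modularFunctionFieldC Qbar M) (j : E) (hj : (j : LaurentSeries Qbar) = jqModC Qbar)
    {v : Place Qbar E} (hv : 0 < v.ord j) : v.ord j ∣ 3 := by
  subst hE
  obtain rfl : j = jEl Qbar M := Subtype.ext hj
  have := ord_jEl_dvd_three exists_qbar_hom.some (v := v) (by simpa using hv)
  simpa using this

theorem exists_three_nsmul {α : Type*} {X : α →₀ ℤ} (h : ∀ a, (3 : ℤ) ∣ X a) :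
    ∃ Z : α →₀ ℤ, (3 : ℕ) • Z = X :=
  ⟨Finsupp.mapRange (· / 3) (by simp) X, Finsupp.ext fun a => by
    rw [Finsupp.smul_apply, Finsupp.mapRange_apply, nsmul_eq_mul, Nat.cast_ofNat,
      Int.mul_ediv_cancel' (h a)]⟩

theorem dvd_of_nsmul_apply {α : Type*} (Z : α →₀ ℤ) (a : α) : (3 : ℤ) ∣ ((3 : ℕ) • Z) a :=
  ⟨Z a, by simp⟩

theorem dvd_of_congr {x r z zv oa oz L c : ℤ} (h : 3 * x + (3 * z + L * r) - c * oa = 3 * oz)
    (ha : oa = 3 * zv + r) : (3 : ℤ) ∣ (L - c) * oa :=
  ⟨oz + L * zv - x - z, by linear_combination h + L * ha⟩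

variable {M : ℕ} [NeZero M] [NeZero (M * 3)] [NeZero (M * 9)]
  {A : ValuationSubring (AlgebraicClosure ℚ)} (hA : A.LiesOverPrime 2)
  [CharP (ResidueField A) 2] [IsAlgClosed (ResidueField A)]
  (hqM : ¬ 2 ∣ M) (hqM' : ¬ 2 ∣ M * 9)
  [IsFunctionField (ResidueField A) (modularFunctionFieldFullC (ResidueField A) M)]
  [IsFunctionField (ResidueField A) (modularFunctionFieldFullC (ResidueField A) (M * 9))]

local instance instFactTwoDescend : Fact (Nat.Prime 2) := ⟨Nat.prime_two⟩

theorem upBar_x0Jb :
    upBar (ResidueField A) (dvd_mul_right M 9) (x0Jb A hA M hqM) = x0Jb A hA (M * 9) hqM' :=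
  Subtype.ext (by rw [coe_upBar, coe_x0Jb, coe_x0Jb])

set_option maxHeartbeats 3200000 in
-- the statement mentions several large fields
include hA hqM' in
/-- Over a cusp some ramification index is prime to `3`. -/
theorem exists_not_dvd_cusp (h3 : ¬ 3 ∣ M)
    {v : Place (ResidueField A) (modularFunctionFieldFullC (ResidueField A) M)}
    (hv : v.ord (x0Jb A hA M hqM) < 0) :
    ∃ u : Place (ResidueField A) (modularFunctionFieldFullC (ResidueField A) (M * 9)),
      u.restrictAlong (upBar (ResidueField A) (dvd_mul_right M 9))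
          (FunctionField.isIntegral_of_isFunctionField _) = v ∧
        ¬ 3 ∣ u.ramificationIndexAlong (upBar (ResidueField A) (dvd_mul_right M 9)) := by
  have hqM3 : ¬ 2 ∣ M * 3 := fun hd => hqM' (hd.trans ⟨3, by ring⟩)
  haveI := isFunctionField_fullC A hA (M * 3) hqM3
  obtain ⟨t, -, -, htc, -⟩ := exists_hauptCoord (M := M * 3) hA
    hqM3 (intToRat_hauptThree_mem (dvd_mul_left 3 M))
  obtain ⟨s, sb, hs, hsc, hsbc⟩ :=
    exists_hauptCoord hA hqM' (LevelSq.intToRat_hNine_mem (dvd_mul_left 9 M))
  obtain ⟨R⟩ := exists_placeRed_x0 A hA M hqM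
  obtain ⟨R'⟩ := exists_placeRed_x0 A hA (M * 9) hqM'
  have h3k : (3 : ResidueField A) ≠ 0 := by
    exact_mod_cast natCast_residue_ne_zero hA (show ¬ 2 ∣ 3 by norm_num)
  have heq := equation_nine (coe_x0Jb A hA (M * 9) hqM') hsbc
  have hcop := isCoprime_nine (K := ResidueField A) h3k
  have htrb : Transcendental (ResidueField A) sb :=
    transcendental_of_equation (transcendental_x0Jb A hA (M * 9) hqM') hcop heq
  have heq0 := equation_nine (j := jMF Qbar (M * 9)) (jMF_coe Qbar _) hsc
  have hcop0 := isCoprime_nine (K := Qbar) (by norm_num)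
  have htr : Transcendental Qbar s :=
    transcendental_of_equation (transcendental_jMF Qbar (M * 9)) hcop0 heq0
  have hnd : NoDefect Qbar⟮s⟯ (ResidueField A)⟮sb⟯ (MF Qbar (M * 9))
      (modularFunctionFieldFullC (ResidueField A) (M * 9)) := by
    have h1 := finrank_adjoin_equation htr hcop0 degree_lt_numNine heq0
    have h2 := finrank_adjoin_equation htrb hcop degree_lt_numNine heq
    have h4 : Module.finrank (ResidueField A)⟮x0Jb A hA (M * 9) hqM'⟯
        (modularFunctionFieldFullC (ResidueField A) (M * 9)) =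
        Module.finrank Qbar⟮x0J A hA (M * 9) hqM'⟯ (modularFunctionFieldBar (M * 9)) :=
      noDefect_x0J A hA (M * 9) hqM'
    rw [← jMF_eq_x0J hA hqM'] at h4
    rw [natDegree_numNine] at h1 h2
    refine Nat.eq_of_mul_eq_mul_left (n := 12) (by norm_num) ?_
    rw [← h2, h4, ← h1]
  have hP := mapDomain_polar_self R' hs htrb hnd
  obtain ⟨-, hpush⟩ := mapDomain_degeneracy A hA hqM hqM' 1 (Or.inl rfl) (upNine M)
    (upBar (ResidueField A) (dvd_mul_right M 9)) (fun y => coe_degMap (L := Qbar) 1 dvd_nine y)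
    (fun z => coe_degBarK _ _ _ z) (FunctionField.isIntegral_of_isFunctionField _)
    (FunctionField.isIntegral_of_isFunctionField _) R R'
  have key := hpush (zeroDivisor (K := Qbar) s⁻¹)
  rw [pushforward_polar_nine htc hsc h3, mapDomain_polar_j hA hqM R, hP] at key
  have key' := congrArg (fun D : Divisor (ResidueField A) _ => D v) key
  simp only [zeroDivisor_apply, v.ord_inv] at key'
  rw [max_eq_left (by omega), pushforwardAlong_apply_eq_sum] at key'
  by_contra hno
  push Not at hno
  have hdiv : (3 : ℤ) * v.ord (x0Jb A hA M hqM) ∣ -v.ord (x0Jb A hA M hqM) := by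
    rw [key']
    refine Finset.dvd_sum fun u hu => ?_
    rw [zeroDivisor_apply, u.ord_inv]
    rcases le_or_gt 0 (u.ord sb) with h | h
    · rw [max_eq_right (by omega)]
      exact dvd_zero _
    · have e := Place.ord_restrictAlong (upBar (ResidueField A) (dvd_mul_right M 9))
        (FunctionField.isIntegral_of_isFunctionField _) u (x0Jb A hA M hqM)
      rw [upBar_x0Jb hA hqM hqM', Place.mem_fiberAlong.1 hu,
        ord_eq_of_pole (by rw [natDegree_numNine, natDegree_denNine]) denNine_ne_zero heq h] at e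
      rw [max_eq_left (by omega), dvd_neg, e]
      exact mul_dvd_mul_right (Int.natCast_dvd_natCast.2 (hno u (Place.mem_fiberAlong.1 hu))) _
  obtain ⟨k, hk⟩ := hdiv
  have : v.ord (x0Jb A hA M hqM) * (3 * k + 1) = 0 := by linear_combination -hk
  rcases mul_eq_zero.1 this with h | h <;> omega

variable {a : modularFunctionFieldFullC (ResidueField A) M}
  (hdvd : ∀ u : Place (ResidueField A) (modularFunctionFieldFullC (ResidueField A) (M * 9)),
    (3 : ℤ) ∣ u.ord (upBar (ResidueField A) (dvd_mul_right M 9) a))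
include hdvd

set_option maxHeartbeats 1600000 in
-- the statement mentions several large fields
theorem dvd_ord_of_not_dvd_ramificationIndex
    {u : Place (ResidueField A) (modularFunctionFieldFullC (ResidueField A) (M * 9))}
    {v : Place (ResidueField A) (modularFunctionFieldFullC (ResidueField A) M)}
    (hu : u.restrictAlong (upBar (ResidueField A) (dvd_mul_right M 9))
      (FunctionField.isIntegral_of_isFunctionField _) = v)
    (he : ¬ 3 ∣ u.ramificationIndexAlong (upBar (ResidueField A) (dvd_mul_right M 9))) :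
    (3 : ℤ) ∣ v.ord a := by
  have e := Place.ord_restrictAlong (upBar (ResidueField A) (dvd_mul_right M 9))
    (FunctionField.isIntegral_of_isFunctionField _) u a
  rw [hu] at e
  exact (Int.prime_three.dvd_mul.1 (e ▸ hdvd u)).resolve_left
    fun h => he (Int.natCast_dvd_natCast.1 h)

set_option maxHeartbeats 3200000 in
-- the statement mentions several large fields
include hA hqM' in
/-- Divisibility descends except at the images of elliptic points of order three. -/
theorem dvd_ord_or_elliptic (h3 : ¬ 3 ∣ M) (R : PlaceRed (x0Datum A hA M hqM))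
    (v : Place (ResidueField A) (modularFunctionFieldFullC (ResidueField A) M)) :
    (3 : ℤ) ∣ v.ord a ∨
      ∃ P : Place Qbar (MF Qbar M), R.r P = v ∧ P.ord (jMF Qbar M) = 1 := by
  set φ := upBar (ResidueField A) (dvd_mul_right M 9)
  set jb := x0Jb A hA M hqM
  rcases lt_or_ge (v.ord jb) 0 with hneg | hnn
  · obtain ⟨u, hu, he⟩ := exists_not_dvd_cusp hA hqM hqM' h3 hneg
    exact Or.inl (dvd_ord_of_not_dvd_ramificationIndex hdvd hu he)
  obtain ⟨u, hu⟩ :=
    exists_restrictAlong_eq φ (FunctionField.isIntegral_of_isFunctionField _) v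
  obtain ⟨g, c, hL, hk⟩ := exists_rrLarge_x0 A hA (M * 9) hqM'
  obtain ⟨R'⟩ := exists_placeRed_x0 A hA (M * 9) hqM'
  have hjb : jb ≠ 0 := ne_zero_of_transcendental (transcendental_x0Jb A hA M hqM)
  obtain ⟨α, hα⟩ := exists_value (v := v) (ordGe_of_le_ord (f := jb) hnn)
  have hαne : jb - algebraMap (ResidueField A) _ α ≠ 0 := fun h =>
    transcendental_x0Jb A hA M hqM
      (show IsAlgebraic (ResidueField A) jb by rw [sub_eq_zero.1 h]; exact isAlgebraic_algebraMap α)
  have hpos : 0 < v.ord (jb - algebraMap (ResidueField A) _ α) := hα.le_ord hαne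
  have e := Place.ord_restrictAlong φ (FunctionField.isIntegral_of_isFunctionField _) u
    (jb - algebraMap (ResidueField A) _ α)
  rw [map_sub, upBar_x0Jb hA hqM hqM', AlgHom.commutes, hu] at e
  have hepos : (0 : ℤ) < u.ramificationIndexAlong φ := by
    exact_mod_cast ramificationIndexAlong_pos φ u
  have hupos := e ▸ mul_pos hepos hpos
  by_cases hα0 : α = 0
  · subst hα0
    simp only [map_zero, sub_zero] at e hpos hupos
    by_cases h3j : (3 : ℤ) ∣ v.ord jb
    · refine Or.inl (dvd_ord_of_not_dvd_ramificationIndex hdvd hu fun h => ?_)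
      obtain ⟨k, hk1, hk3, hk4⟩ :=
        exists_ord_jb_eq hA hqM' R' hL hk ((dvd_mul_left 3 M).trans ⟨3, by ring⟩) hupos
      obtain ⟨r, hr⟩ := h
      obtain ⟨s, hs⟩ := h3j
      rw [hk4, hr, hs] at e
      push_cast at e
      have h9 : (9 : ℤ) ∣ 4 * k := ⟨(r : ℤ) * s, by rw [e]; ring⟩
      omega
    · right
      by_contra hno
      push Not at hno
      refine h3j ?_
      classical
      rw [← divisorOf_apply, ← R.map_divisorOf _ _ (red_jMF hA hqM) hjb, Finsupp.mapDomain,
        Finsupp.sum_apply]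
      refine Finset.dvd_sum fun P _ => ?_
      dsimp only
      rw [Finsupp.single_apply]
      split
      · next hP =>
        rw [divisorOf_apply]
        have h0 : 0 ≤ P.ord (jMF Qbar M) := ord_jMF_nonneg hA hqM R (by rw [hP]; exact hpos.le)
        rcases h0.eq_or_lt with h | h
        · rw [← h]; exact dvd_zero _
        · have hd := ord_dvd_three_of_eq ((degreeFacts Qbar).gen M) (jMF Qbar M)
            (jMF_coe Qbar M) h
          obtain ⟨n, hn⟩ := Int.eq_ofNat_of_zero_le h.le
          rw [hn] at hd ⊢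
          rcases (Nat.dvd_prime Nat.prime_three).1 (Int.natCast_dvd_natCast.1 hd) with h1 | h1
          · exact absurd (by rw [hn, h1]; rfl) (hno P hP)
          · rw [h1]; exact dvd_refl _
      · exact dvd_zero _
  · refine Or.inl (dvd_ord_of_not_dvd_ramificationIndex hdvd hu fun h => ?_)
    rw [ord_jb_sub_eq_one hA hqM' R' hL hk (dvd_mul_left 9 M) hα0 hupos] at e
    have h1 := (Int.natCast_dvd_natCast.2 h).trans ⟨_, e⟩
    norm_num at h1

set_option maxHeartbeats 3200000 in
-- the statement mentions several large fields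
include hA hqM' in
/-- Divisibility by `3` descends for eigenfunctions. -/
theorem dvd_ord_descend (h3 : ¬ 3 ∣ M) (ha : a ≠ 0) (l : ℕ) [NeZero l] (hl : l.Prime)
    (hlM : ¬ l ∣ M) (hl2 : l ≠ 2) {c : ℕ} (hc : ¬ (3 : ℤ) ∣ ((l + 1 : ℕ) : ℤ) - c)
    (heig : PowConst (ResidueField A) 3 (heckeC A hA M hqM l hl hlM a / a ^ c))
    (v : Place (ResidueField A) (modularFunctionFieldFullC (ResidueField A) M)) :
    (3 : ℤ) ∣ v.ord a := by
  classical
  haveI := Hecke.hasPrincipalDivisors_level Qbar (M * l)
  have hlM' : ¬ 2 ∣ M * l := fun h => (Nat.prime_two.dvd_mul.1 h).elim hqM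
    fun h' => hl2 ((Nat.prime_dvd_prime_iff_eq Nat.prime_two hl).1 h').symm
  haveI := isFunctionField_fullC A hA (M * l) hlM'
  obtain ⟨R⟩ := exists_placeRed_x0 A hA M hqM
  choose P hPr hPj using fun (w : {w : Place (ResidueField A)
      (modularFunctionFieldFullC (ResidueField A) M) // ¬ (3 : ℤ) ∣ w.ord a}) =>
    (dvd_ord_or_elliptic hA hqM hqM' hdvd h3 R w.1).resolve_left w.2
  set D := divisorOf (K := ResidueField A) a with hD
  set S := (D.support.filter fun w => ¬ (3 : ℤ) ∣ w.ord a).attach
  let Q : {w // w ∈ D.support.filter fun w => ¬ (3 : ℤ) ∣ w.ord a} → Place Qbar (MF Qbar M) :=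
    fun w => P ⟨w.1, (Finset.mem_filter.1 w.2).2⟩
  set E : Divisor Qbar (MF Qbar M) := ∑ w ∈ S, D w.1 • Finsupp.single (Q w) (1 : ℤ) with hE
  -- the defect
  obtain ⟨Z, hZ⟩ := exists_three_nsmul (X := D - Finsupp.mapDomain R.r E) fun w => by
    have e : Finsupp.mapDomain R.r E =
        ∑ w ∈ D.support.filter (fun w => ¬ (3 : ℤ) ∣ w.ord a), Finsupp.single w (D w) := by
      rw [hE, ← Finsupp.mapDomain.addMonoidHom_apply, map_sum,
        ← Finset.sum_attach (D.support.filter _)]
      refine Finset.sum_congr rfl fun w _ => ?_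
      rw [map_zsmul, Finsupp.mapDomain.addMonoidHom_apply, Finsupp.mapDomain_single, hPr,
        Finsupp.smul_single, smul_eq_mul, mul_one]
    rw [Finsupp.sub_apply, e, Finsupp.finsetSum_apply]
    simp only [Finsupp.single_apply, Finset.sum_ite_eq', Finset.mem_filter, Finsupp.mem_support_iff,
      hD, divisorOf_apply]
    split_ifs with h
    · rw [sub_self]; exact dvd_zero _
    · rw [sub_zero]
      by_contra h'
      exact h ⟨fun h0 => h' (h0 ▸ dvd_zero _), h'⟩
  obtain ⟨Z', hZ'⟩ := exists_three_nsmul (X := heckeDiv M l E - (l + 1) • E) fun p => by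
    rw [hE, map_sum, Finset.smul_sum, ← Finset.sum_sub_distrib, Finsupp.finsetSum_apply]
    refine Finset.dvd_sum fun w _ => ?_
    rw [map_zsmul, smul_comm (l + 1) (D w.1), ← smul_sub, Finsupp.smul_apply, smul_eq_mul]
    exact Dvd.dvd.mul_left (dvd_heckeDiv_single_sub hl hlM _ (hPj _) p) _
  -- reduction of the correspondence
  obtain ⟨f, hf⟩ := (x0Datum A hA M hqM).exists_lift a
  have hT := x0_red_heckeFun A hA M hqM l hl hlM hf ha
  have h1 := R.map_divisorOf _ _ hT ((_root_.map_ne_zero _).2 ha)
  have hα : HeckeAlphaBarIntegral Qbar M l := Hecke.alphaBarIntegral_of_facts (Hecke.levelFacts Qbar) M l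
  have hβ : HeckeBetaBarIntegral Qbar M l := Hecke.betaBarIntegral_of_facts (Hecke.levelFacts Qbar) M l
  rw [divisorOf_heckeFun _ (hf.ne_zero ha)] at h1
  unfold heckeDiv at h1 hZ'
  rw [mapDomain_heckeDivBar A hA hl hqM hlM' hα hβ R, R.map_divisorOf _ _ hf ha, ← hD] at h1
  have h2 := mapDomain_heckeDivBar A hA hl hqM hlM' hα hβ R E
  rw [eq_add_of_sub_eq hZ'.symm, Finsupp.mapDomain_add, ← Finsupp.mapDomain.addMonoidHom_apply,
    map_nsmul, ← Finsupp.mapDomain.addMonoidHom_apply, map_nsmul] at h2
  rw [eq_add_of_sub_eq hZ.symm, map_add, map_nsmul, map_add, map_nsmul, ← h2] at h1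
  have h3' := congrArg (fun X : Divisor (ResidueField A) _ => X v) h1
  simp only [Finsupp.add_apply, Finsupp.smul_apply, Finsupp.mapDomain.addMonoidHom_apply,
    nsmul_eq_mul, divisorOf_apply, Nat.cast_ofNat] at h3'
  have h4 := congrArg (fun X : Divisor (ResidueField A) _ => X v) (eq_add_of_sub_eq hZ.symm)
  simp only [Finsupp.add_apply, Finsupp.smul_apply, nsmul_eq_mul, hD, divisorOf_apply,
    Nat.cast_ofNat] at h4
  obtain ⟨t, z, ht, hz, htz⟩ := heig
  have h5 := congrArg v.ord htz
  rw [FunctionField.ord_div ((_root_.map_ne_zero _).2 ha) (pow_ne_zero _ ha), FunctionField.ord_pow,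
    v.ord_mul ((_root_.map_ne_zero _).2 ht) (pow_ne_zero _ hz), ord_algebraMap,
    FunctionField.ord_pow, zero_add, ← h3'] at h5
  refine (Int.prime_three.dvd_mul.1 ?_).resolve_left hc
  push_cast at h5 ⊢
  exact dvd_of_congr h5 h4

end FLTAgent.MazurP.Three
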