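import Fermat.Agent.MazurP.Three.Descend
import Fermat.Agent.LevelLower.MazurFlat

/-!
# Eigen classes of level `2 M` killed below are flat, `p = 3`, through level `18 M`

The degree of the auxiliary covering is a multiple of `3`; the divisibility descends by the Hecke
eigenvalue.
-/

set_option autoImplicit false
set_option linter.style.haveILetI false
set_option linter.unusedSectionVars false
set_option synthInstance.maxHeartbeats 100000

noncomputable section

open ModularCurve AlgebraicCurve SemilinearAut IsLocalRing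

namespace FLTAgent.MazurP.Three

open FLTAgent.GoodRed FLTAgent.GoodRed.RedDatum FLTAgent.Semistable FLTAgent.FunctionField
  FLTAgent.Hecke FLTAgent.LevelLower

local instance (priority := high) instAlgebraSubFlatThree {K L : Type*} [Field K] [Field L]
    [Algebra K L] (E : IntermediateField K L) : Algebra K E :=
  SubalgebraClass.toAlgebra E

section abstract

variable {L k : Type*} [Field L] [Field k] {A : ValuationSubring L} {π : A →+* k}

variable {E F C : Type*} [Field E] [Algebra L E] [Field F] [Algebra L F] [Algebra E F]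
  [IsScalarTower L E F] [Field C] [Algebra k C]
  [IsFunctionField L E] [IsFunctionField L F] [IsFunctionField k C] [IsAlgClosed L]
  [IsAlgClosed k] [Module.Finite E F]
  {DE : RedDatum A π E C} {D D' : RedDatum A π F C} {frob : C →ₐ[k] C} {q : ℕ}

/-- A rational torsion eigenclass with principal image below, absent from the component, is
flat. -/
theorem exists_flat_of_eigen (hS : OneSide DE D D' frob q) (hpow : ∀ z : C, ∃ w, frob w = z ^ q)
    [CharP C q] (R : GalStr D D') (hA : IsRankOne A) {esep : F} (hesK : esep ∈ R.FK)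
    (hes : D.Red esep 1) (hes' : D'.Red esep 0) {m : ℕ} (hm : 0 < m) {X : Divisor L F}
    (hX : Divisor.degree X = 0) (hXfix : ∀ γ, R.act γ • X = X) {g : F} (hgK : g ∈ R.FK)
    (hg : g ≠ 0) (hdiv : divisorOf g = m • X) (hpush : (Divisor.pushforward E X).IsPrincipal)
    {Λ : Type*} (H : Λ → HeckeOp D D' R.FK) (c : Λ → ℕ)
    (heig : ∀ l, ∃ e, e ≠ 0 ∧ (H l).Tdiv X - c l • X = divisorOf e)
    (hne : ∃ l, IsCoprime (((H l).d : ℤ) - c l) m)
    (hdvd : ∀ (G : F) (Y : Divisor L F) (a b w : C), G ∈ R.FK → Divisor.degree Y = 0 →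
      (∀ γ, R.act γ • Y = Y) → divisorOf G = m • Y → D.Red G a → D'.Red G b → a ≠ 0 → b ≠ 0 →
      frob w = b ^ q → PowConst k m (a * w) →
      (∀ l, PowConst k m ((H l).Tb a / a ^ c l)) → (∀ l, PowConst k m ((H l).Tb b / b ^ c l)) →
        ∀ v : Place k C, (m : ℤ) ∣ v.ord a ∧ (m : ℤ) ∣ v.ord b)
    (hkill : ∀ a : C, a ≠ 0 → (∀ v : Place k C, (m : ℤ) ∣ v.ord a) →
      (∀ l, PowConst k m ((H l).Tb a / a ^ c l)) → PowConst k m a) :
    ∃ h : F, h ≠ 0 ∧ NodeSystem.IsFlat (D := D) (D' := D') m (X - divisorOf h) := by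
  -- the gap of `g` is divisible by `m`
  obtain ⟨c₀, n, z₀, z₀', -, hc₀, hz₀, hz₀', hr₀, hr₀'⟩ := R.exists_gap hA hgK hg
  have hgap : R.Gap g n := ⟨c₀, z₀, z₀', hc₀, hz₀, hz₀', hr₀, hr₀'⟩
  obtain ⟨l, hl⟩ := hne
  obtain ⟨e, he, heq⟩ := heig l
  have hTgK : (H l).T g ∈ R.FK := (H l).T_FK g hgK
  have hTg : (H l).T g ≠ 0 := (map_ne_zero (H l).T).2 hg
  have hdivT : divisorOf ((H l).T g) = m • (c l • X + divisorOf e) := by
    rw [(H l).div_T g hg, hdiv, map_nsmul, ← heq]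
    abel_nf
  have hefix : ∀ γ, R.act γ • divisorOf (K := L) e = divisorOf e := fun γ => by
    refine nsmul_cancel hm ?_
    have h1 : R.act γ • (m • (c l • X + divisorOf e)) = m • (c l • X + divisorOf e) := by
      rw [← hdivT, ← divisorOf_toRingAut, R.fix_FK γ _ hTgK]
    rw [smul_comm (R.act γ) m, smul_add, smul_comm (R.act γ) (c l), hXfix, smul_add, smul_add] at h1
    exact add_left_cancel h1
  obtain ⟨e', he'K, he', hdive'⟩ : ∃ e' ∈ R.FK, e' ≠ 0 ∧ divisorOf (K := L) e' = divisorOf e := by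
    by_contra hall
    push Not at hall
    have hle := R.span_rat (-divisorOf e) fun γ => by rw [smul_neg, hefix]
    have hmem : e ∈ riemannRochSpace (-divisorOf (K := L) e) :=
      mem_rr_iff.2 fun v => ordGe_of_le_ord (by simp)
    have hzero : Submodule.span L
        ((riemannRochSpace (-divisorOf (K := L) e) : Set F) ∩ R.FK) = ⊥ := by
      refine Submodule.span_eq_bot.2 fun f ⟨hf, hfK⟩ => ?_
      by_contra hf0
      refine hall f hfK hf0 (FLTAgent.GoodRed.eq_of_le_of_degree_eq (fun v => ?_)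
        (by rw [degree_divisorOf, degree_divisorOf])).symm
      have := (mem_rr_iff.1 hf v).le_ord hf0
      simpa using this
    rw [hzero] at hle
    exact he (Submodule.mem_bot L |>.1 (hle hmem))
  obtain ⟨ce, ne, we, we', -, hce, hwe, hwe', hre, hre'⟩ := R.exists_gap hA he'K he'
  have hgape : R.Gap e' ne := ⟨ce, we, we', hce, hwe, hwe', hre, hre'⟩
  obtain ⟨t, ht, hteq⟩ := exists_smul_of_divisorOf_eq (K := L) hTg
    (mul_ne_zero (pow_ne_zero (c l) hg) (pow_ne_zero m he')) (by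
      rw [hdivT, divisorOf_mul (pow_ne_zero _ hg) (pow_ne_zero _ he'), divisorOf_pow,
        divisorOf_pow, hdiv, hdive', smul_add, smul_comm m (c l)])
  have hTgap : R.Gap ((H l).T g) (((H l).d : ℤ) * n) := by
    refine ⟨c₀ ^ (H l).d, (H l).Tb z₀, (H l).Tb z₀', pow_ne_zero _ hc₀,
      (map_ne_zero _).2 hz₀, (map_ne_zero _).2 hz₀', ?_, ?_⟩
    · rw [← (H l).T_smul]; exact (H l).red _ _ hr₀ hz₀
    · rw [mul_comm ((H l).d : ℤ) n, zpow_mul, zpow_natCast, ← mul_pow, ← (H l).T_smul]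
      exact (H l).red' _ _ hr₀' hz₀'
  have hsum := hTgap.unique (hteq ▸ (((hgap.pow (c l)).mul (hgape.pow m)).smul ht))
  have hdvd : (m : ℤ) ∣ n :=
    hl.symm.dvd_of_dvd_mul_left ⟨ne, by linear_combination hsum⟩
  obtain ⟨j, rfl⟩ := hdvd
  -- normalise
  obtain ⟨Hf, hHK, hH, hHgap⟩ := R.exists_of_gap esep hesK hes hes' (-j)
  have hgK' : g * Hf ^ m ∈ R.FK := mul_mem hgK (pow_mem hHK _)
  have hg' : g * Hf ^ m ≠ 0 := mul_ne_zero hg (pow_ne_zero _ hH)
  have hgap' : R.Gap (g * Hf ^ m) 0 := by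
    have := hgap.mul (hHgap.pow m)
    rwa [show (m : ℤ) * j + (m : ℤ) * -j = 0 by ring] at this
  obtain ⟨s, n', a, b, hsK, hs, ha0, hb0, ha, hb⟩ := R.exists_gap hA hgK' hg'
  have hn' : n' = 0 := RatStr.Gap.unique ⟨s, a, b, hs, ha0, hb0, ha, hb⟩ hgap'
  rw [hn', zpow_zero, mul_one] at hb
  set G := s • (g * Hf ^ m) with hG
  set X' := X + divisorOf (K := L) Hf with hX'
  have hX'deg : Divisor.degree X' = 0 := by rw [hX', map_add, hX, degree_divisorOf, add_zero]
  have hX'fix : ∀ γ, R.act γ • X' = X' := fun γ => by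
    rw [hX', smul_add, hXfix, ← divisorOf_toRingAut, R.fix_FK γ _ hHK]
  have hdiv' : divisorOf G = m • X' := by
    rw [hG, divisorOf_smul hs hg', divisorOf_mul hg (pow_ne_zero _ hH), divisorOf_pow, hdiv,
      ← smul_add]
  have hpush' : (Divisor.pushforward E X').IsPrincipal := by
    rw [hX', map_add]
    exact Divisor.principal.add_mem hpush
      (Divisor.isPrincipal_pushforward_of_normFormula pushforwardNormFormula
        ⟨Hf, hH, fun v => divisorOf_apply _ _⟩)
  obtain ⟨w, hw⟩ := hpow b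
  have hnorm := hS.powConst_norm hdiv' ha hb ha0 hb0 hw hpush'
  have heig' : ∀ l, ∃ e, e ≠ 0 ∧ (H l).Tdiv X' - c l • X' = divisorOf e := fun l => by
    obtain ⟨e, he, heq⟩ := heig l
    have h1 : (H l).T Hf ≠ 0 := (map_ne_zero (H l).T).2 hH
    refine ⟨e * ((H l).T Hf * (Hf ^ c l)⁻¹),
      mul_ne_zero he (mul_ne_zero h1 (inv_ne_zero (pow_ne_zero _ hH))), ?_⟩
    rw [divisorOf_mul he (mul_ne_zero h1 (inv_ne_zero (pow_ne_zero _ hH))),
      divisorOf_mul h1 (inv_ne_zero (pow_ne_zero _ hH)), divisorOf_inv, divisorOf_pow,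
      (H l).div_T _ hH, ← heq, hX', map_add, smul_add]
    abel
  have eig : ∀ (Dx : RedDatum A π F C)
      (_ : ∀ l f z, Dx.Red f z → z ≠ 0 → Dx.Red ((H l).T f) ((H l).Tb z)) (r : C),
      Dx.Red G r → r ≠ 0 → ∀ l, PowConst k m ((H l).Tb r / r ^ c l) := by
    intro Dx hDx r hr hr0 l
    obtain ⟨e, he, heq⟩ := heig' l
    exact powConst_eigen (H l) Dx (hDx l) hdiv' hr hr0 he heq
  have hd := hdvd G X' a b w (R.smul_mem hsK hgK') hX'deg hX'fix hdiv' ha hb ha0 hb0 hw hnorm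
    (eig D (fun l => (H l).red) a ha ha0) (eig D' (fun l => (H l).red') b hb hb0)
  have kill : ∀ (Dx : RedDatum A π F C)
      (_ : ∀ l f z, Dx.Red f z → z ≠ 0 → Dx.Red ((H l).T f) ((H l).Tb z)) (r : C),
      Dx.Red G r → r ≠ 0 → (∀ v : Place k C, (m : ℤ) ∣ v.ord r) → PowConst k m r := by
    intro Dx hDx r hr hr0 hdv
    exact hkill r hr0 hdv (eig Dx hDx r hr hr0)
  obtain ⟨h, hh, hflat⟩ := NodeSystem.exists_flat_of_powConst hA hes hes' hX'deg hdiv' ha hb
    (kill D (fun l => (H l).red) a ha ha0 fun v => (hd v).1)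
    (kill D' (fun l => (H l).red') b hb hb0 fun v => (hd v).2)
  refine ⟨h / Hf, div_ne_zero hh hH, ?_⟩
  have hXX : X - divisorOf (K := L) (h / Hf) = X' - divisorOf h := by
    rw [hX', div_eq_mul_inv, divisorOf_mul hh (inv_ne_zero hH), divisorOf_inv]
    abel
  rwa [hXX]

end abstract

section up

variable {L k : Type*} [Field L] [Field k] {A : ValuationSubring L} {π : A →+* k}
  {F C : Type*} [Field F] [Algebra L F] [Field C] [Algebra k C]
  [IsFunctionField L F] [IsFunctionField k C] [IsAlgClosed L] [IsAlgClosed k]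
  {D D' : RedDatum A π F C} {frob : C →ₐ[k] C} {q : ℕ}
  {E₁ F₁ C₁ : Type*} [Field E₁] [Algebra L E₁] [Field F₁] [Algebra L F₁] [Algebra E₁ F₁]
  [IsScalarTower L E₁ F₁] [Field C₁] [Algebra k C₁] [IsFunctionField L E₁] [IsFunctionField L F₁]
  [IsFunctionField k C₁] [Module.Finite E₁ F₁]
  [Algebra F F₁] [IsScalarTower L F F₁] [Algebra C C₁] [IsScalarTower k C C₁]
  {DE₁ : RedDatum A π E₁ C₁} {D₁ D₁' : RedDatum A π F₁ C₁} {frob₁ : C₁ →ₐ[k] C₁}
  {ι : Type*} [Fintype ι] (S : CrossData DE₁ D₁ D₁' frob₁ q ι) [CharP k q]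
  [Module.Finite F F₁] [Module.Finite C C₁]

variable {S} {GS : GalStr D D'} {R : RatData S} (hmap : LevelMap S GS R frob)
include hmap

/-- The orders upstairs of the two reductions are multiples of `m`. -/
theorem dvd_ord_up (hA : IsRankOne A) {m : ℕ} (hm : 0 < m)
    {G : F} {Y : Divisor L F} {a b w : C}
    (hY : Divisor.degree Y = 0) (hYfix : ∀ γ, GS.act γ • Y = Y)
    (hdiv : divisorOf G = m • Y) (ha : D.Red G a) (hb : D'.Red G b) (ha0 : a ≠ 0) (hb0 : b ≠ 0)
    (hw : frob w = b ^ q) (hp : PowConst k m (a * w)) (u : Place k C₁) :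
    (m : ℤ) ∣ u.ord (algebraMap C C₁ a) ∧ (m : ℤ) ∣ u.ord (algebraMap C C₁ b) := by
  have ha1 : algebraMap C C₁ a ≠ 0 := (map_ne_zero _).2 ha0
  have hb1 : algebraMap C C₁ b ≠ 0 := (map_ne_zero _).2 hb0
  have hp1 : PowConst k m (algebraMap C C₁ a * algebraMap C C₁ w) := by
    obtain ⟨t, z, ht, hz, hh⟩ := hp
    refine ⟨t, algebraMap C C₁ z, ht, (map_ne_zero _).2 hz, ?_⟩
    rw [← map_mul, hh, map_mul, map_pow, ← IsScalarTower.algebraMap_apply]
  exact dvd_ord_of_norm S R hA hm (degree_pullback_eq_zero hY)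
    (hmap.map_fix Y hYfix) ((map_ne_zero _).2 (ha.ne_zero ha0))
    (by rw [divisorOf_algebraMap, hdiv, map_nsmul]) (hmap.red _ _ ha) (hmap.red' _ _ hb) ha1 hb1
    (by rw [← hmap.frob_comm, hw, map_pow]) hp1 u

end up

local notation "Qbar" => AlgebraicClosure ℚ
local notation "Γℚ" => AlgebraicClosure ℚ ≃ₐ[ℚ] AlgebraicClosure ℚ

variable {A : ValuationSubring (AlgebraicClosure ℚ)}
  {hA : A.LiesOverPrime 2} [CharP (ResidueField A) 2] [IsAlgClosed (ResidueField A)]
  {M : ℕ} [NeZero M] [NeZero (M * 9)] {hqM : ¬ 2 ∣ M} {hqM' : ¬ 2 ∣ M * 9}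
  [IsFunctionField (ResidueField A) (modularFunctionFieldFullC (ResidueField A) M)]
  [IsFunctionField (ResidueField A) (modularFunctionFieldFullC (ResidueField A) (M * 9))]

local instance instFactTwoFlat : Fact (Nat.Prime 2) := ⟨Nat.prime_two⟩
local instance instFactThreeFlat : Fact (Nat.Prime 3) := ⟨Nat.prime_three⟩
local instance instNeZeroTwoFlat : NeZero (M * 2) :=
  ⟨Nat.mul_ne_zero (NeZero.ne M) two_ne_zero⟩
local instance instNeZeroTwoFlat' : NeZero (M * 9 * 2) :=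
  ⟨Nat.mul_ne_zero (NeZero.ne (M * 9)) two_ne_zero⟩
local instance instNeZeroThreeFlat : NeZero (M * 3) :=
  ⟨Nat.mul_ne_zero (NeZero.ne M) three_ne_zero⟩

local instance algAlphaFlatThree : Algebra (MF Qbar (M * 9)) (MF Qbar (M * 9 * 2)) :=
  algebraAlong (alphaMap Qbar (M * 9) 2)

local instance (priority := high) modAlphaFlatThree :
    Module (MF Qbar (M * 9)) (MF Qbar (M * 9 * 2)) :=
  Algebra.toModule

local instance towerAlphaFlatThree :
    IsScalarTower Qbar (MF Qbar (M * 9)) (MF Qbar (M * 9 * 2)) :=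
  isScalarTower_along (alphaMap Qbar (M * 9) 2)

local instance finiteAlphaFlatThree : Module.Finite (MF Qbar (M * 9)) (MF Qbar (M * 9 * 2)) :=
  finite_alongAlpha (M * 9)

variable {ι : Type*} [Fintype ι]
  (X : CrossData (x0Datum A hA (M * 9) hqM') (redInf A hA (M * 9) hqM') (redZero A hA (M * 9) hqM')
    (frobC (K := ResidueField A) 2 (M * 9)) 2 ι)

set_option maxHeartbeats 3200000 in
-- the statement mentions several large fields
include X in
/-- An eigen class fixed by inertia, absent below, has a flat representative. -/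
theorem exists_flat_rep_three (h3 : ¬ 3 ∣ M) (h : M ∣ M * 9)
    (hx : Set.range X.x = crossingSet A hA hqM') (hG : ∀ σ : Γℚ, galAct (M * 9) σ • X.G₁ = X.G₁)
    {a : ℕ → ℕ}
    (hne : ∃ l : ℕ, l.Prime ∧ ¬ l ∣ M * 2 * 3 ∧ (a l : ZMod 3) ≠ (l : ZMod 3) + 1)
    (habs : ∀ y ∈ eigenSub M 3 a (M * 2 * 3), y = 0)
    {x : JZero (M * 2)} (hxe : x ∈ eigenSub (M * 2) 3 a (M * 2 * 3))
    (hfix : ∀ σ ∈ A.inertiaSubgroupIn ℚ, σ • x = x) :
    ∃ D : Divisor.degZero (K := Qbar) (F := MF Qbar (M * 2)), Pic0.mk D = x ∧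
      NodeSystem.IsFlat (D := redInf A hA M hqM) (D' := redZero A hA M hqM) 3
        (D : Divisor Qbar (MF Qbar (M * 2))) := by
  have hp : 0 < 3 := (Fact.out : Nat.Prime 3).pos
  obtain ⟨D, g, hD, hDfix, hgK, hg, hdiv⟩ := exists_fixed_torsion_rep A hp hxe.1 hfix
  have hDdeg : Divisor.degree (D : Divisor Qbar (MF Qbar (M * 2))) = 0 := Divisor.mem_degZero.1 D.2
  have h1 : M * 1 ∣ M * 2 := by rw [mul_one]; exact dvd_mul_right M 2
  -- the image below vanishes
  have hpush : LevelSq.pushPic 1 h1 x = 0 :=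
    habs _ (pushPic_mem_eigenSub 1 h1 (dvd_refl _) hxe)
  letI := algebraAlong (alphaMap Qbar M 2)
  haveI := isScalarTower_along (alphaMap Qbar M 2)
  haveI : Module.Finite (MF Qbar M) (MF Qbar (M * 2)) := finite_alongAlpha M
  have hprin : (Divisor.pushforward (MF Qbar M) (D : Divisor Qbar (MF Qbar (M * 2)))).IsPrincipal := by
    rw [← hD, LevelSq.pushPic_mk] at hpush
    exact AddSubgroup.mem_addSubgroupOf.1 ((QuotientAddGroup.eq_zero_iff _).1 hpush)
  -- the operators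
  let Λ := {l : Nat.Primes // ¬ (l : ℕ) ∣ M * 2 * 3}
  have hlM : ∀ i : Λ, ¬ (i.1 : ℕ) ∣ M := fun i hd => i.2 ((hd.mul_right 2).mul_right 3)
  have hlq : ∀ i : Λ, (i.1 : ℕ) ≠ 2 := fun i hd =>
    i.2 (by rw [hd]; exact (dvd_mul_left 2 M).mul_right 3)
  let H : Λ → HeckeOp (redInf A hA M hqM) (redZero A hA M hqM) (levelRat A hA M hqM).FK :=
    fun i =>
      haveI : NeZero (i.1 : ℕ) := ⟨i.1.2.ne_zero⟩
      haveI := Hecke.hasPrincipalDivisors_level Qbar (M * 2 * (i.1 : ℕ))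
      levelHecke A hA M hqM i.1 i.1.2 (hlM i) (hlq i)
  have heig : ∀ i : Λ, ∃ e, e ≠ 0 ∧ (H i).Tdiv (D : Divisor Qbar (MF Qbar (M * 2))) -
      a i.1 • (D : Divisor Qbar (MF Qbar (M * 2))) = divisorOf e := fun i =>
    exists_heckeDiv_eigen i.1 (a i.1) D (by rw [hD]; exact hxe.2 i.1 i.2)
  have hne' : ∃ i : Λ, IsCoprime (((H i).d : ℤ) - a i.1) 3 := by
    obtain ⟨l, hl, hlS, hla⟩ := hne
    refine ⟨⟨⟨l, hl⟩, hlS⟩, ((Nat.prime_iff_prime_int.1 Fact.out).coprime_iff_not_dvd.2 ?_).symm⟩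
    intro hd
    refine hla ?_
    have h0 := (ZMod.intCast_zmod_eq_zero_iff_dvd (((l + 1 : ℕ) : ℤ) - a l) 3).2 hd
    push_cast at h0
    exact (sub_eq_zero.1 h0).symm
  -- divisibility through the auxiliary level
  letI := algebraAlong (upMap 2 h)
  letI := algebraAlong (upBar (ResidueField A) h)
  haveI := isScalarTower_along (upMap 2 h)
  haveI := isScalarTower_along (upBar (ResidueField A) h)
  haveI : Module.Finite (MF Qbar (M * 2)) (MF Qbar ((M * 9) * 2)) :=
    finiteAlong_of_isFunctionField (upMap 2 h)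
  haveI : Module.Finite (modularFunctionFieldFullC (ResidueField A) M)
      (modularFunctionFieldFullC (ResidueField A) (M * 9)) :=
    finiteAlong_of_isFunctionField (upBar (ResidueField A) h)
  have hmap := auxLevelMap X h hx hG (hqM := hqM)
  have hrank : IsRankOne A := Semistable.isRankOne_of_liesOverPrime hA Fact.out
  obtain ⟨hes, hes'⟩ := red_sepFun hA hqM
  haveI : CharP (modularFunctionFieldFullC (ResidueField A) M) 2 :=
    charP_of_injective_algebraMap
      (algebraMap (ResidueField A) (modularFunctionFieldFullC (ResidueField A) M)).injective 2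
  have hesK : sepFun M (q := 2) ∈ (levelRat A hA M hqM).FK := by
    intro σ _
    have hj : toRingAut (galAct M σ) (jMF Qbar M) = jMF Qbar M := arithmeticGalois_jMF M σ
    simp only [sepFun, map_div₀, map_sub, map_pow, galAct_alphaMap, galAct_betaMap, hj]
  obtain ⟨i₀, hi₀'⟩ := hne'
  haveI : NeZero (i₀.1 : ℕ) := ⟨i₀.1.2.ne_zero⟩
  have hi₀ : ¬ (3 : ℤ) ∣ (((i₀.1 : ℕ) + 1 : ℕ) : ℤ) - a i₀.1 :=
    Int.prime_three.coprime_iff_not_dvd.1 hi₀'.symm
  obtain ⟨e, he, hflat⟩ := exists_flat_of_eigen (oneSide_alpha hA hqM) (exists_frobC_eq_pow 2 M)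
    (levelRat A hA M hqM) hrank (esep := sepFun M) hesK hes hes' hp hDdeg hDfix hgK hg hdiv
    hprin H (fun i => a i.1) heig ⟨i₀, hi₀'⟩
    (fun G Y u v w hGK hY hYfix hGdiv hu hv hu0 hv0 hw hp' hea heb x => by
      have hup := dvd_ord_up hmap hrank hp hY hYfix hGdiv hu hv hu0 hv0 hw hp'
      exact ⟨dvd_ord_descend hA hqM hqM' (fun u' => (hup u').1) h3 hu0 i₀.1 i₀.1.2 (hlM i₀)
          (hlq i₀) hi₀ (hea i₀) x,
        dvd_ord_descend hA hqM hqM' (fun u' => (hup u').2) h3 hv0 i₀.1 i₀.1.2 (hlM i₀)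
          (hlq i₀) hi₀ (heb i₀) x⟩)
    (fun u hu hdvd hpow => powConst_of_eigen hA hqM 3 (by norm_num : (3 : ℕ) ≠ 2) (fun i : Λ => i.1) hlM
      (fun i => a i.1) (fun y hy hy' => habs y ⟨hy, fun l hl => hy' ⟨l, hl⟩⟩) hu hdvd hpow)
  refine ⟨⟨_, Divisor.mem_degZero.2 hflat.1⟩,
    (QuotientAddGroup.eq_iff_sub_mem.2 ?_).trans hD, hflat⟩
  refine AddSubgroup.mem_addSubgroupOf.2 ⟨e⁻¹, inv_ne_zero he, fun v => ?_⟩
  rw [AddSubgroup.coe_sub, sub_sub_cancel_left, Finsupp.neg_apply, divisorOf_apply, v.ord_inv]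

end FLTAgent.MazurP.Three
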