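import Fermat.Agent.MazurP.Three.Mazur
import Fermat.Agent.MazurP.LowerGeneral

/-!
# Lowering at `p` of a peu ramifiée system, also at `p = 3`

For `p = 3` and an odd level `N` the prime `2` is added and then removed by Mazur's principle at
`2`: the level `3 N` shows that the system is unramified at `2` with determinant `2` at a Frobenius,
which is not a scalar `± 2`.
-/

set_option autoImplicit false
set_option linter.style.haveILetI false

noncomputable section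

open WeierstrassCurve ModularCurve
open scoped WeierstrassCurve.Affine

namespace FLTAgent.MazurP.Three

open FLTAgent.LevelLower FLTAgent.LevelLower.Endgame

local notation "Qbar" => AlgebraicClosure ℚ
local notation "Γℚ" => AlgebraicClosure ℚ ≃ₐ[ℚ] AlgebraicClosure ℚ

theorem sq_ne_two : ∀ x : ZMod 3, x ^ 2 ≠ 2 := by decide

variable {W : WeierstrassCurve ℤ}

set_option maxHeartbeats 1600000 in
-- the classes live in a large quotient
/-- Inertia at a prime not dividing a residual level and `p` acts trivially on `W[p]`. -/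
theorem torsMat_eq_one_of_modular {p : ℕ} [Fact p.Prime] (hΔ : W.Δ ≠ 0) (hp2 : p ≠ 2)
    (hirr : W.ModRepIsIrreducible p) {N : ℕ} [NeZero N]
    (hmod : W.IsResiduallyModularOfLevel p N) {l : ℕ} (hl : l.Prime) (hlN : ¬ l ∣ N * p)
    {A : ValuationSubring Qbar} (hA : A.LiesOverPrime l) {g : Γℚ}
    (hg : g ∈ A.inertiaSubgroupIn ℚ) : torsMat hΔ p g = 1 := by
  haveI : NeZero (N * p) := ⟨Nat.mul_ne_zero (NeZero.ne N) (Fact.out : p.Prime).ne_zero⟩
  obtain ⟨x, h1, h2, h3⟩ := exists_eigenTorsion_of_isResiduallyModularOfLevel hΔ hmod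
  have hxE : x ∈ eigenSub N p (frobTrace hΔ p) (N * p) := ⟨h2, fun k hk =>
    h3 k k.2 (fun h => hk (h.mul_right p)) fun h => hk (h ▸ dvd_mul_left p N)⟩
  haveI : Nontrivial (eigenSub N p (frobTrace hΔ p) (N * p)) :=
    ⟨⟨x, hxE⟩, 0, fun h => h1 (congrArg Subtype.val h)⟩
  obtain ⟨V, -, hsc⟩ := exists_factor_scalar hp2 (span_torsMat_eq_top hΔ p hp2 hirr)
    (killedBy_eigenRep (N := N) (S := N * p) dvd_rfl (torsMat hΔ p)
      (exists_fixing_torsMat_eq_one hΔ p) fun k hk hkK B hB σ hσ =>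
        torsMat_of_isResiduallyModularOfLevel hΔ hmod hk (fun h => hkK (h.mul_right p))
          (fun h => hkK (h ▸ dvd_mul_left p N)) B hB σ hσ)
  have h := hsc g 1 fun v _ => Subtype.ext (by
    rw [coe_eigenRep, one_zsmul]
    exact (galoisFacts' N p).inertia l hl hlN A hA g hg v ⟨1, by rw [pow_one]; exact v.2.1⟩)
  rwa [Int.cast_one, one_smul] at h

set_option maxHeartbeats 1600000 in
-- the classes live in a large quotient
/-- The prime `2` leaves a level `2 N` if the system has level `3 N`. -/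
theorem remove_two [Fact (Nat.Prime 3)] (hΔ : W.Δ ≠ 0) (hirr : W.ModRepIsIrreducible 3) {N : ℕ}
    [NeZero N] (h2 : ¬ 2 ∣ N) (h3 : ¬ 3 ∣ N) (hmod₃ : W.IsResiduallyModularOfLevel 3 (N * 3))
    (hmod : W.IsResiduallyModularOfLevel 3 (N * 2)) : W.IsResiduallyModularOfLevel 3 N := by
  haveI : Fact (Nat.Prime 2) := ⟨Nat.prime_two⟩
  haveI : NeZero (N * 2) := ⟨Nat.mul_ne_zero (NeZero.ne N) two_ne_zero⟩
  haveI : NeZero (N * 3) := ⟨Nat.mul_ne_zero (NeZero.ne N) three_ne_zero⟩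
  haveI : NeZero (N * 9) := ⟨Nat.mul_ne_zero (NeZero.ne N) (by norm_num)⟩
  have hp2 : (3 : ℕ) ≠ 2 := by norm_num
  have h23 : ¬ 2 ∣ N * 3 := fun h =>
    (Nat.prime_two.dvd_mul.1 h).elim h2 (by norm_num)
  by_contra hno
  set a := frobTrace hΔ 3
  have hK0 : N * 2 * 3 ≠ 0 := mul_ne_zero (NeZero.ne (N * 2)) three_ne_zero
  have habs : ∀ y : JZero N, 3 • y = 0 → (∀ (l : ℕ) (hl : l.Prime), ¬ l ∣ N * 2 * 3 →
      heckeOperatorBar N ⟨l, hl⟩ y = a l • y) → y = 0 := fun y hy hT => by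
    by_contra hy0
    refine hno (isResiduallyModularOfLevel_of_eigenTorsion hΔ hy0 hy {2, 3}
      fun k hk hkN hkS => hT k hk fun h => ?_)
    simp only [Finset.mem_insert, Finset.mem_singleton, not_or] at hkS
    rcases hk.dvd_mul.1 h with h' | h'
    · rcases hk.dvd_mul.1 h' with h'' | h''
      · exact hkN h''
      · exact hkS.1 ((Nat.prime_dvd_prime_iff_eq hk Nat.prime_two).1 h'')
    · exact hkS.2 ((Nat.prime_dvd_prime_iff_eq hk Nat.prime_three).1 h')
  obtain ⟨x, hx1, hx2, hx3⟩ := exists_eigenTorsion_of_isResiduallyModularOfLevel hΔ hmod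
  obtain ⟨l, hl, hlS, hne⟩ := exists_frobTrace_ne hΔ 3 hp2 hirr (N * 2 * 3).primeFactors
  obtain ⟨A, σ, hA, hσ⟩ := Frobenius.exists_liesOverPrime_isFrobeniusAt Nat.prime_two
  obtain ⟨c, -, hρ⟩ := mazur_principle_two h2 h3 (torsMat hΔ 3)
    (span_torsMat_eq_top hΔ 3 hp2 hirr) (exists_fixing_torsMat_eq_one hΔ 3) a
    (fun k hk hkK => torsMat_of_isResiduallyModularOfLevel hΔ hmod hk
      (fun h => hkK (h.mul_right 3)) (fun h => hkK (h ▸ dvd_mul_left 3 (N * 2))))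
    (fun B hB g hg => torsMat_eq_one_of_modular hΔ hp2 hirr hmod₃ Nat.prime_two
      (fun h => (Nat.prime_two.dvd_mul.1 h).elim h23 (by norm_num)) hB hg)
    ⟨l, hl, fun h => hlS (Nat.mem_primeFactors.2 ⟨hl, h, hK0⟩), hne⟩
    ⟨x, hx1, hx2, fun k hk hkK => hx3 k hk (fun h => hkK (h.mul_right 3))
      (fun h => hkK (h ▸ dvd_mul_left 3 (N * 2)))⟩ habs A hA σ hσ
  have hdet := (torsMat_of_isResiduallyModularOfLevel hΔ hmod₃ Nat.prime_two h23
    (by norm_num) A hA σ hσ).2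
  rw [hρ, Matrix.det_smul, Matrix.det_one, mul_one, Fintype.card_fin] at hdet
  exact sq_ne_two c (by simpa using hdet)

/-- Lowering at `p` of a peu ramifiée system. -/
theorem isResiduallyModularOfLevel_div (hΔ : W.Δ ≠ 0) {p : ℕ} (hp : p.Prime) (hp2 : p ≠ 2)
    (hsemi : (p : ℤ) ∣ W.Δ → ¬ (p : ℤ) ∣ W.c₄) (hirr : W.ModRepIsIrreducible p)
    (hfin : (W.map (Int.castRingHom ℚ)).IsPeuRamifieeAt p p)
    {M : ℕ} (hM : 0 < M) (hpM : p ∣ M) (hp2M : ¬ p ^ 2 ∣ M)
    (hmod : W.IsResiduallyModularOfLevel p M) : W.IsResiduallyModularOfLevel p (M / p) := by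
  haveI : Fact p.Prime := ⟨hp⟩
  by_cases h5 : 5 ≤ p
  · exact lowerAtP_five hΔ h5 hsemi hirr hfin hM hpM hp2M hmod
  obtain rfl : p = 3 := by
    by_contra h3
    exact h5 (hp.five_le_of_ne_two_of_ne_three hp2 h3)
  obtain ⟨N, rfl⟩ := hpM
  rw [Nat.mul_div_cancel_left _ three_pos]
  rw [mul_comm] at hmod
  have hN : 0 < N := Nat.pos_of_ne_zero fun h => hM.ne' (by rw [h, mul_zero])
  have h3 : ¬ 3 ∣ N := fun h => hp2M (by rw [pow_two]; exact Nat.mul_dvd_mul_left 3 h)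
  by_cases h2 : 2 ∣ N
  · exact isResiduallyModularOfLevel_of_peu hΔ hp2 hsemi hirr hfin hN (Or.inr ⟨rfl, h2⟩) h3 hmod
  haveI : NeZero N := ⟨hN.ne'⟩
  haveI : NeZero (N * 3) := ⟨Nat.mul_ne_zero hN.ne' three_ne_zero⟩
  haveI : NeZero (N * 2 * 3) :=
    ⟨Nat.mul_ne_zero (Nat.mul_ne_zero hN.ne' two_ne_zero) three_ne_zero⟩
  exact remove_two hΔ hirr h2 h3 hmod (isResiduallyModularOfLevel_of_peu hΔ hp2 hsemi hirr hfin
    (Nat.mul_pos hN two_pos) (Or.inr ⟨rfl, dvd_mul_left 2 N⟩)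
    (fun h => (Nat.prime_three.dvd_mul.1 h).elim h3 (by norm_num))
    (isResiduallyModularOfLevel_mono (Nat.mul_dvd_mul_right (dvd_mul_right N 2) 3) hmod))

/-- Lowering at a prime `p` of good reduction. -/
theorem isResiduallyModularOfLevel_div_of_good (hΔ : W.Δ ≠ 0) {p : ℕ} (hp : p.Prime) (hp2 : p ≠ 2)
    (hgood : W.IsGoodPrimeFor p) (hirr : W.ModRepIsIrreducible p)
    {M : ℕ} (hM : 0 < M) (hpM : p ∣ M) (hp2M : ¬ p ^ 2 ∣ M)
    (hmod : W.IsResiduallyModularOfLevel p M) : W.IsResiduallyModularOfLevel p (M / p) := by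
  refine isResiduallyModularOfLevel_div hΔ hp hp2 (fun h => absurd h hgood) hirr ?_ hM hpM hp2M hmod
  haveI : Fact p.Prime := ⟨hp⟩
  rw [IsPeuRamifieeAt, map_Δ, eq_intCast, padicValRat.of_int,
    padicValInt.eq_zero_of_not_dvd hgood, Nat.cast_zero]
  exact dvd_zero _

end FLTAgent.MazurP.Three
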