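import Fermat.Agent.MazurP.Three.Cusp
import Fermat.Agent.LevelLower.Mazur

/-!
# Pullback from level `N` to level `9 N` is injective on `3`-torsion for `3 ∤ N`
-/

set_option autoImplicit false
set_option linter.style.haveILetI false
set_option linter.unusedSectionVars false
set_option synthInstance.maxHeartbeats 100000

noncomputable section

open ModularCurve AlgebraicCurve

namespace FLTAgent.MazurP.Three

open FLTAgent.GoodRed FLTAgent.GoodRed.SmallPrime FLTAgent.Semistable
  FLTAgent.FunctionField FLTAgent.Hecke FLTAgent.LevelLower FLTAgent.Igusa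

local notation "Qbar" => AlgebraicClosure ℚ

section abstract

variable {K E F : Type*} [Field K] [IsAlgClosed K] [CharZero K] [Field E] [Field F] [Algebra K E]
  [Algebra K F] [IsFunctionField K E] [IsFunctionField K F]
  (φ : E →ₐ[K] F) (hφ : φ.toRingHom.IsIntegral)

set_option maxHeartbeats 800000 in
include hφ in
/-- In a cubic extension with a point of index `3` a cube root of a function with orders divisible
by `3` lies in the base. -/
theorem mem_range_of_cube (hdeg : finrankAlong K φ = 3) {w : Place K E}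
    (hw : ∀ u : Place K F, u.restrictAlong φ hφ = w → 3 ∣ u.ramificationIndexAlong φ)
    {f : E} (hf : f ≠ 0) (h3 : (3 : ℤ) ∣ w.ord f) {G : F} (hG : G ^ 3 = φ f) :
    ∃ g : E, φ g = G := by
  classical
  by_contra hno
  push Not at hno
  obtain ⟨π, hπ0, hπ⟩ := Hecke.exists_ord_eq_one w
  obtain ⟨k, hk⟩ := h3
  set r := π ^ (-k) with hr
  have hr0 : r ≠ 0 := zpow_ne_zero _ hπ0
  set f' := f * r ^ 3 with hf'
  have hf'0 : f' ≠ 0 := mul_ne_zero hf (pow_ne_zero _ hr0)
  have hf'w : w.ord f' = 0 := by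
    rw [hf', w.ord_mul hf (pow_ne_zero _ hr0), FunctionField.ord_pow, hr, w.ord_zpow, hπ, hk]
    ring
  set G' := G * φ r with hG'
  have hG'3 : G' ^ 3 = φ f' := by rw [hG', mul_pow, hG, hf', map_mul, map_pow]
  obtain ⟨u, hu⟩ := exists_restrictAlong_eq φ hφ w
  have hsum := sum_fiberAlong_ramificationIndex φ hφ w
  rw [hdeg] at hsum
  have h3le : ∀ x ∈ Place.fiberAlong φ hφ w, 3 ≤ x.ramificationIndexAlong φ := fun x hx =>
    Nat.le_of_dvd (ramificationIndexAlong_pos φ x) (hw x (Place.mem_fiberAlong.1 hx))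
  have hcard := Finset.card_nsmul_le_sum _ _ 3 h3le
  rw [hsum, smul_eq_mul] at hcard
  have hum : u ∈ Place.fiberAlong φ hφ w := Place.mem_fiberAlong.2 hu
  have hfib : Place.fiberAlong φ hφ w = {u} :=
    Finset.eq_singleton_iff_unique_mem.2 ⟨hum, fun x hx =>
      Finset.card_le_one.1 (by omega) x hx u hum⟩
  rw [hfib, Finset.sum_singleton] at hsum
  have hG'0 : G' ≠ 0 := fun h => by
    rw [h, zero_pow (by norm_num)] at hG'3
    exact (_root_.map_ne_zero φ).2 hf'0 hG'3.symm
  have hG'u : u.ord G' = 0 := by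
    have h := congrArg u.ord hG'3
    rw [FunctionField.ord_pow, Place.ord_restrictAlong φ hφ, hu, hf'w, mul_zero] at h
    omega
  obtain ⟨c, hc⟩ := exists_value (v := u) (ordGe_of_le_ord (f := G') hG'u.ge)
  have hc0 : c ≠ 0 := by
    rintro rfl
    rw [map_zero, sub_zero] at hc
    have := hc.le_ord hG'0
    omega
  set x := G' - algebraMap K F c with hx
  have hxr : ∀ g : E, φ g ≠ x := fun g hg => hno ((g + algebraMap K E c) / r) (by
    rw [map_div₀, map_add, hg, AlgHom.commutes, hx, sub_add_cancel, hG',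
      mul_div_cancel_right₀ _ ((_root_.map_ne_zero φ).2 hr0)])
  have hx0 : x ≠ 0 := fun h => hxr 0 (by rw [map_zero, h])
  letI := algebraAlong φ
  have hnorm : Algebra.norm E x = f' - algebraMap K E c ^ 3 := by
    rw [norm_eq_of_cubic (a := 3 * algebraMap K E c) (b := 3 * algebraMap K E c ^ 2)
      (c := algebraMap K E c ^ 3 - f') hdeg (by rintro ⟨g, hg⟩; exact hxr g hg) (by
      show x ^ 3 + φ (3 * algebraMap K E c) * x ^ 2 + φ (3 * algebraMap K E c ^ 2) * x +
        φ (algebraMap K E c ^ 3 - f') = 0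
      simp only [map_sub, map_mul, map_pow, map_ofNat, AlgHom.commutes, ← hG'3, hx]
      ring), neg_sub]
  have h1 := ord_norm_along φ hφ w hx0
  rw [hnorm, hfib, Finset.sum_singleton] at h1
  have hxu : 1 ≤ u.ord x := hc.le_ord hx0
  obtain ⟨hq0, hq⟩ := ord_eq_of_ordGe_sub (v := u)
    (f := x ^ 2 + algebraMap K F (3 * c) * x + algebraMap K F (3 * c ^ 2))
    (g := algebraMap K F (3 * c ^ 2)) (n := 1) (by
      rw [add_sub_cancel_right]
      exact ((ordGe_ord _).mono (by rw [FunctionField.ord_pow]; omega)).add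
        (((ordGe_algebraMap _).mul (ordGe_ord x)).mono (by omega)))
    ((_root_.map_ne_zero _).2 (mul_ne_zero (by norm_num) (pow_ne_zero _ hc0)))
    (by rw [ord_algebraMap]; omega)
  rw [ord_algebraMap] at hq
  have e : φ (f' - algebraMap K E c ^ 3) =
      x * (x ^ 2 + algebraMap K F (3 * c) * x + algebraMap K F (3 * c ^ 2)) := by
    simp only [map_sub, map_mul, map_pow, map_ofNat, AlgHom.commutes, ← hG'3, hx]
    ring
  have e' := congrArg u.ord e
  rw [Place.ord_restrictAlong φ hφ, hu, hsum, h1, u.ord_mul hx0 hq0, hq] at e'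
  omega

end abstract

set_option maxHeartbeats 3200000 in
-- the statement mentions several large fields
/-- Pullback from level `N` to level `9 N` is injective on `3`-torsion. -/
theorem pullPic_eq_zero {N N' : ℕ} [NeZero N] [NeZero N'] (hN' : N' = N * 9) (h3 : ¬ 3 ∣ N)
    (h : N * 1 ∣ N') {z : JZero N} (hz : 3 • z = 0) (hp : Eisen.pullPic 1 h z = 0) : z = 0 := by
  subst hN'
  haveI : NeZero (N * 3) := ⟨Nat.mul_ne_zero (NeZero.ne N) three_ne_zero⟩
  haveI := (Hecke.levelFacts Qbar).principal (N * 9)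
  obtain ⟨D, rfl⟩ := Pic0.mk_surjective z
  rw [Eisen.pullPic_mk] at hp
  obtain ⟨g, hg, hgdiv⟩ := AddSubgroup.mem_addSubgroupOf.1 ((QuotientAddGroup.eq_zero_iff _).1 hp)
  obtain ⟨f, hf, hfdiv⟩ := (QuotientAddGroup.eq_zero_iff (3 • D)).1
    ((QuotientAddGroup.mk_nsmul _ D 3).trans hz)
  have hfd : ∀ v, v.ord f = 3 * (D : Divisor Qbar (MF Qbar N)) v := fun v => by
    rw [← hfdiv v]
    show ((3 • D : Divisor.degZero (K := Qbar) (F := MF Qbar N)) : Divisor Qbar (MF Qbar N)) v = _
    rw [coe_degZero_nsmul', Finsupp.smul_apply, nsmul_eq_mul, Nat.cast_ofNat]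
  have hφ : degMap Qbar 1 h = upNine N := rfl
  have hf9 : upNine N f ≠ 0 := (_root_.map_ne_zero (upNine N)).2 hf
  obtain ⟨c, hc, hfg⟩ := exists_smul_of_divisorOf_eq (K := Qbar) hf9 (pow_ne_zero 3 hg)
    (Finsupp.ext fun w => by
      rw [divisorOf_apply, divisorOf_apply, FunctionField.ord_pow, ← hgdiv w,
        Place.ord_restrictAlong (upNine N) (FunctionField.isIntegral_of_isFunctionField _), hfd]
      show _ = (3 : ℕ) * Divisor.pullbackAlong (degMap Qbar 1 h)
        ((Hecke.levelFacts Qbar).integral 1 h) (D : Divisor Qbar (MF Qbar N)) w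
      rw [Divisor.pullbackAlong_apply]
      simp only [hφ]
      push_cast
      ring)
  obtain ⟨d, hd⟩ := IsAlgClosed.exists_pow_nat_eq c (n := 3) (by norm_num)
  set G := algebraMap Qbar (MF Qbar (N * 9)) d * g with hGdef
  have hG : G ^ 3 = upThreeNine N (upThree N f) := by
    rw [hGdef, mul_pow, ← map_pow, hd, ← Algebra.smul_def, ← hfg]
    exact (AlgHom.congr_fun
      (degMap_comp Qbar 1 1 1 dvd_three dvd_three_nine dvd_nine (mul_one 1)) f).symm
  have ht := intToRat_hauptThree_mem (M := N * 3) (dvd_mul_left 3 N)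
  have hs := LevelSq.intToRat_hNine_mem (M := N * 9) (dvd_mul_left 9 N)
  obtain ⟨t, htc⟩ : ∃ t : MF Qbar (N * 3),
      (t : LaurentSeries Qbar) = coeffMap (Int.castRingHom Qbar) hauptThree :=
    ⟨⟨_, coeffEmb_mem_laurentBaseChange Qbar ht⟩,
      HahnSeries.ext (funext fun k => map_intCast _ _)⟩
  obtain ⟨s, hsc⟩ : ∃ s : MF Qbar (N * 9),
      (s : LaurentSeries Qbar) = coeffMap (Int.castRingHom Qbar) LevelSq.hNine :=
    ⟨⟨_, coeffEmb_mem_laurentBaseChange Qbar hs⟩,
      HahnSeries.ext (funext fun k => map_intCast _ _)⟩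
  obtain ⟨w, hw, hw3⟩ := exists_t_zero htc h3
  have hram : ∀ u : Place Qbar (MF Qbar (N * 9)),
      u.restrictAlong (upThreeNine N) (FunctionField.isIntegral_of_isFunctionField _) = w →
        3 ∣ u.ramificationIndexAlong (upThreeNine N) := fun u hu => by
    have e := Place.ord_restrictAlong (upThreeNine N)
      (FunctionField.isIntegral_of_isFunctionField _) u t
    rw [hu] at e
    have he : (0 : ℤ) < u.ramificationIndexAlong (upThreeNine N) := by
      exact_mod_cast ramificationIndexAlong_pos (upThreeNine N) u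
    have h := three_dvd_ord_of_cube (v := u) (cube_up htc hsc) (e ▸ mul_pos he hw)
    rw [e] at h
    exact Int.natCast_dvd_natCast.1 ((Int.prime_three.dvd_mul.1 h).resolve_right hw3)
  have hf3 : upThree N f ≠ 0 := (_root_.map_ne_zero (upThree N)).2 hf
  obtain ⟨G₁, hG₁⟩ := mem_range_of_cube (upThreeNine N)
    (FunctionField.isIntegral_of_isFunctionField _) (finrankAlong_upThreeNine h3) hram hf3
    (by
      rw [Place.ord_restrictAlong (upThree N) (FunctionField.isIntegral_of_isFunctionField _), hfd]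
      exact Dvd.dvd.mul_left (dvd_mul_right 3 _) _) hG
  have hcube : upThree N f = G₁ ^ 3 :=
    (upThreeNine N).toRingHom.injective (by
      show upThreeNine N (upThree N f) = upThreeNine N (G₁ ^ 3)
      rw [map_pow, hG₁, hG])
  letI := algebraAlong (upThree N)
  have h4 : f ^ 4 = Algebra.norm (MF Qbar N) G₁ ^ 3 := by
    rw [← map_pow, ← hcube]
    refine ((Algebra.norm_algebraMap (S := MF Qbar (N * 3)) f).trans ?_).symm
    exact congrArg (f ^ ·) (finrankAlong_upThree h3)
  refine eq_zero_of_coprime_nsmul (d := 4) (by norm_num) hz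
    ((QuotientAddGroup.mk_nsmul _ D 4).symm.trans ((QuotientAddGroup.eq_zero_iff _).2
      (AddSubgroup.mem_addSubgroupOf.2 ⟨Algebra.norm (MF Qbar N) G₁, fun h0 => by
        rw [h0] at h4; simp [hf] at h4, fun v => ?_⟩)))
  rw [coe_degZero_nsmul', Finsupp.smul_apply, nsmul_eq_mul, Nat.cast_ofNat]
  have e := congrArg v.ord h4
  rw [FunctionField.ord_pow, FunctionField.ord_pow, hfd] at e
  push_cast at e
  omega

end FLTAgent.MazurP.Three
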