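import Fermat.Agent.MazurP.Three.Flat
import Fermat.Agent.MazurP.Three.PullInj
import Fermat.Agent.LevelLower.Mazur

/-!
# Mazur's principle at `q = 2` for `p = 3` through level `18 M`
-/

set_option autoImplicit false
set_option linter.style.haveILetI false
set_option linter.unusedSectionVars false
set_option synthInstance.maxHeartbeats 100000

noncomputable section

open ModularCurve AlgebraicCurve SemilinearAut IsLocalRing

namespace FLTAgent.MazurP.Three

open FLTAgent.GoodRed FLTAgent.GoodRed.RedDatum FLTAgent.Semistable FLTAgent.FunctionField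
  FLTAgent.Hecke FLTAgent.LevelLower

local instance (priority := high) instAlgebraSubMazurThree {K L : Type*} [Field K] [Field L]
    [Algebra K L] (E : IntermediateField K L) : Algebra K E :=
  SubalgebraClass.toAlgebra E

local notation "Qbar" => AlgebraicClosure ℚ
local notation "Γℚ" => AlgebraicClosure ℚ ≃ₐ[ℚ] AlgebraicClosure ℚ

variable {A : ValuationSubring (AlgebraicClosure ℚ)}
  {hA : A.LiesOverPrime 2} [CharP (ResidueField A) 2] [IsAlgClosed (ResidueField A)]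
  {M : ℕ} [NeZero M] [NeZero (M * 9)] {hqM : ¬ 2 ∣ M} {hqM' : ¬ 2 ∣ M * 9}
  [IsFunctionField (ResidueField A) (modularFunctionFieldFullC (ResidueField A) M)]
  [IsFunctionField (ResidueField A) (modularFunctionFieldFullC (ResidueField A) (M * 9))]

local instance instFactTwoMazur : Fact (Nat.Prime 2) := ⟨Nat.prime_two⟩
local instance instFactThreeMazur : Fact (Nat.Prime 3) := ⟨Nat.prime_three⟩
local instance instNeZeroTwoMazur : NeZero (M * 2) :=
  ⟨Nat.mul_ne_zero (NeZero.ne M) two_ne_zero⟩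
local instance instNeZeroTwoMazur' : NeZero (M * 9 * 2) :=
  ⟨Nat.mul_ne_zero (NeZero.ne (M * 9)) two_ne_zero⟩
local instance instNeZeroThreeMazur : NeZero (M * 3) :=
  ⟨Nat.mul_ne_zero (NeZero.ne M) three_ne_zero⟩

local instance algAlphaMazurThree : Algebra (MF Qbar (M * 9)) (MF Qbar (M * 9 * 2)) :=
  algebraAlong (alphaMap Qbar (M * 9) 2)

local instance (priority := high) modAlphaMazurThree :
    Module (MF Qbar (M * 9)) (MF Qbar (M * 9 * 2)) :=
  Algebra.toModule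

local instance towerAlphaMazurThree :
    IsScalarTower Qbar (MF Qbar (M * 9)) (MF Qbar (M * 9 * 2)) :=
  isScalarTower_along (alphaMap Qbar (M * 9) 2)

local instance finiteAlphaMazurThree : Module.Finite (MF Qbar (M * 9)) (MF Qbar (M * 9 * 2)) :=
  finite_alongAlpha (M * 9)

variable {ι : Type*} [Fintype ι]
  (X : CrossData (x0Datum A hA (M * 9) hqM') (redInf A hA (M * 9) hqM') (redZero A hA (M * 9) hqM')
    (frobC (K := ResidueField A) 2 (M * 9)) 2 ι)

set_option maxHeartbeats 3200000 in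
-- the statement mentions several large fields
include X in
/-- Frobenius is `-2` times the exchange on flat classes of level `M 2`. -/
theorem frobenius_add_swap_three (h3 : ¬ 3 ∣ M) (h : M ∣ (M * 9))
    (hfr : X.frP = frPlace 2 (M * 9)) (hx : Set.range X.x = crossingSet A hA hqM')
    (hG₁ : ∀ σ : Γℚ, galAct (M * 9) σ • X.G₁ = X.G₁) (hG₂ : ∀ σ : Γℚ, galAct (M * 9) σ • X.G₂ = X.G₂)
    (hG : X.G₁ = zeroDivisor (K := Qbar) (jMF Qbar (M * 9))⁻¹) {φ : Γℚ} (hφ : A.IsFrobeniusAt φ 2)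
    {D : Divisor.degZero (K := Qbar) (F := MF Qbar (M * 2))} (hDp : 3 • Pic0.mk D = 0)
    (hflat : NodeSystem.IsFlat (D := redInf A hA M hqM) (D' := redZero A hA M hqM) 3
      (D : Divisor Qbar (MF Qbar (M * 2)))) :
    φ • Pic0.mk D + 2 • swapPic hqM (Pic0.mk D) = 0 := by
  obtain ⟨W, T, hWw, hTs, hTperm, hTτ⟩ := exists_swap_frobenius X hfr hx hG₁ hG₂ hG hφ
  letI := algebraAlong (upMap 2 h)
  letI := algebraAlong (upBar (ResidueField A) h)
  haveI := isScalarTower_along (upMap 2 h)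
  haveI := isScalarTower_along (upBar (ResidueField A) h)
  haveI : Module.Finite (MF Qbar (M * 2)) (MF Qbar ((M * 9) * 2)) :=
    finiteAlong_of_isFunctionField (upMap 2 h)
  haveI : Module.Finite (modularFunctionFieldFullC (ResidueField A) M)
      (modularFunctionFieldFullC (ResidueField A) (M * 9)) :=
    finiteAlong_of_isFunctionField (upBar (ResidueField A) h)
  have hmap := auxLevelMap X h hx hG₁ (hqM := hqM)
  have hrank : IsRankOne A := Semistable.isRankOne_of_liesOverPrime hA Fact.out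
  have hp0 : ((3 : ℕ) : ResidueField A) ≠ 0 := fun h0 => (by norm_num : (2 : ℕ) ≠ 3)
    ((Nat.prime_dvd_prime_iff_eq (Fact.out : Nat.Prime 2) Fact.out).1
      ((CharP.cast_eq_zero_iff (ResidueField A) 2 3).1 h0))
  obtain ⟨f, hf, hfdiv⟩ := W.smul_add_principal T hTperm hTτ hrank
    ⟨((2 : ℕ) : Qbar), Nat.cast_ne_zero.2 (Fact.out : Nat.Prime 2).ne_zero, hA⟩ hp0
    (hmap.isFlat_pullback hflat)
  rw [hTs, hWw, pullback_smul_of_intertwines (galAct (M * 2) φ) (galAct ((M * 9) * 2) φ)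
      (upMap_galAct h φ),
    pullback_smul_of_intertwines (ofAlgAut (swapW M hqM)) (ofAlgAut (swapW (M * 9) hqM'))
      (fun u => (upMap_swapW h hqM hqM' u).symm), ← map_nsmul, ← map_add] at hfdiv
  set Z : Divisor.degZero (K := Qbar) (F := MF Qbar (M * 2)) :=
    degZeroSMulHom (galAct (M * 2) φ) D + 2 • degZeroSMulHom (ofAlgAut (swapW M hqM)) D with hZdef
  have hZ : Pic0.mk Z = φ • Pic0.mk D + 2 • swapPic hqM (Pic0.mk D) := by
    show _ = galAct (M * 2) φ • Pic0.mk D + 2 • (ofAlgAut (swapW M hqM) • Pic0.mk D)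
    rw [SemilinearAut.pic0_smul_mk, SemilinearAut.pic0_smul_mk]
    exact (map_add (QuotientAddGroup.mk' _) _ _).trans
      (congrArg₂ (· + ·) rfl (map_nsmul (QuotientAddGroup.mk' _) _ _))
  have h1 : M * 2 * 1 ∣ (M * 9) * 2 := by rw [mul_one]; exact Nat.mul_dvd_mul_right h 2
  have hpull : Eisen.pullPic 1 h1 (Pic0.mk Z) = 0 := by
    rw [Eisen.pullPic_mk]
    refine (QuotientAddGroup.eq_zero_iff _).2 (AddSubgroup.mem_addSubgroupOf.2
      ⟨f, hf, fun v => Eq.trans ?_ (divisorOf_apply f v)⟩)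
    rw [← hfdiv]
    have e : (Z : Divisor Qbar (MF Qbar (M * 2))) = galAct (M * 2) φ •
        (D : Divisor Qbar (MF Qbar (M * 2))) + 2 • ofAlgAut (swapW M hqM) •
        (D : Divisor Qbar (MF Qbar (M * 2))) := by
      rw [hZdef, AddSubgroup.coe_add, coe_degZero_nsmul', coe_degZeroSMulHom, coe_degZeroSMulHom]
    show Divisor.pullbackAlong (Hecke.degMap Qbar 1 h1) ((Hecke.levelFacts Qbar).integral 1 h1) (Z : Divisor Qbar (MF Qbar (M * 2))) v = _
    rw [e]
    rfl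
  rw [← hZ]
  refine pullPic_eq_zero (by ring) ?_ h1 ?_ hpull
  · exact fun hd => (Nat.prime_three.dvd_mul.1 hd).elim h3 (by norm_num)
  rw [hZ, nsmul_add, ← GalRep.smul_nsmul_jZero, hDp, GalRep.smul_zero_jZero, ← mul_nsmul',
    mul_comm 3 2, mul_nsmul', ← map_nsmul, hDp, map_zero, nsmul_zero, add_zero]

set_option maxHeartbeats 1600000 in
-- the statement mentions several large fields
/-- Mazur's principle at `2 = 2`, `3 = 3`, for `3 ∤ M`, through level `18 M`. -/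
theorem mazur_principle_two {M : ℕ} [NeZero M] [NeZero (M * 9)] (hqM : ¬ 2 ∣ M) (h3 : ¬ 3 ∣ M)
    (ρ : Γℚ →* Matrix (Fin 2) (Fin 2) (ZMod 3))
    (hspan : Submodule.span (ZMod 3) (Set.range ρ) = ⊤)
    (hker : ∃ L : IntermediateField ℚ Qbar, FiniteDimensional ℚ L ∧
      ∀ σ : Γℚ, (∀ x ∈ L, σ x = x) → ρ σ = 1)
    (a : ℕ → ℕ)
    (hfrob : ∀ l : ℕ, l.Prime → ¬ l ∣ M * 2 * 3 →
      ∀ A : ValuationSubring Qbar, A.LiesOverPrime l → ∀ σ : Γℚ, A.IsFrobeniusAt σ l →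
        (ρ σ).trace = (a l : ZMod 3) ∧ (ρ σ).det = (l : ZMod 3))
    (hunr : ∀ A : ValuationSubring Qbar, A.LiesOverPrime 2 →
      ∀ σ ∈ A.inertiaSubgroupIn ℚ, ρ σ = 1)
    (hne : ∃ l : ℕ, l.Prime ∧ ¬ l ∣ M * 2 * 3 ∧ (a l : ZMod 3) ≠ (l : ZMod 3) + 1)
    (hx : ∃ x : JZero (M * 2), x ≠ 0 ∧ 3 • x = 0 ∧ ∀ (l : ℕ) (hl : l.Prime), ¬ l ∣ M * 2 * 3 →
      heckeOperatorBar (M * 2) ⟨l, hl⟩ x = a l • x)
    (habs : ∀ x : JZero M, 3 • x = 0 → (∀ (l : ℕ) (hl : l.Prime), ¬ l ∣ M * 2 * 3 →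
      heckeOperatorBar M ⟨l, hl⟩ x = a l • x) → x = 0)
    (A : ValuationSubring Qbar) (hA : A.LiesOverPrime 2) (σ : Γℚ) (hσ : A.IsFrobeniusAt σ 2) :
    ∃ c : ZMod 3, (c = ((2 : ℕ) : ZMod 3) ∨ c = -((2 : ℕ) : ZMod 3)) ∧ ρ σ = c • 1 := by
  have hqP : Nat.Prime 2 := Fact.out
  have hpP : Nat.Prime 3 := Fact.out
  have hp2 : (3 : ℕ) ≠ 2 := by norm_num
  have hqM' : ¬ 2 ∣ M * 9 := fun hd => (Nat.prime_two.dvd_mul.1 hd).elim hqM (by norm_num)
  obtain ⟨c2, c3, c4, c5⟩ : nuTwo (M * 9) = 0 ∧ nuThree (M * 9) = 0 ∧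
      (2 = 2 → 3 ∣ M * 9) ∧ (2 = 3 → 2 ∣ M * 9) := by
    simpa [auxFactor] using aux_conditions M 2
  haveI : NeZero (M * 2 * 3) :=
    ⟨mul_ne_zero (mul_ne_zero (NeZero.ne M) hqP.ne_zero) hpP.ne_zero⟩
  haveI : IsAlgClosed (ResidueField A) := GoodRed.isAlgClosed_residue A
  haveI : CharP (ResidueField A) 2 := (CharP.charP_iff_prime_eq_zero hqP).2 (by
    rw [← map_natCast (residue A), IsLocalRing.residue_eq_zero_iff, ← ValuationSubring.coe_mem_nonunits_iff]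
    exact hA)
  haveI := isFunctionField_fullC A hA M hqM
  haveI := isFunctionField_fullC A hA ((M * 9)) hqM'
  have habs' : ∀ y ∈ eigenSub M 3 a (M * 2 * 3), y = 0 := fun y hy =>
    habs y hy.1 fun l hl hlS => hy.2 ⟨l, hl⟩ hlS
  have hx' : ∃ x ∈ eigenSub (M * 2) 3 a (M * 2 * 3), x ≠ 0 := by
    obtain ⟨x, hx0, hxp, hxe⟩ := hx
    exact ⟨x, ⟨hxp, fun l hl => hxe l l.2 hl⟩, hx0⟩
  obtain ⟨ε, hε, V, hVe, hVw, hVfac, hVsc⟩ :=
    exists_eigen_stable hqM hp2 dvd_rfl ρ hspan hker hfrob hx'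
  obtain ⟨ι, _, X, hfr, hxX, hG₁, hG₂, hG⟩ := exists_x0CrossData' hA hqM' c2 c3
    (mul_psi_le_card_crossingSet hA hqM' c2 c3 c4 c5)
  have hrel : ∀ x ∈ V, σ • x = (-(((2 : ℕ) : ℤ) * ε)) • x := by
    intro x hxV
    obtain ⟨D, hD, hflat⟩ := exists_flat_rep_three X h3 (dvd_mul_right M 9) hxX hG₁ hne habs'
      (hqM := hqM) (hVe hxV) fun g hg => hVfac g (hunr A hA g hg) x hxV
    have h := frobenius_add_swap_three X h3 (dvd_mul_right M 9) hfr hxX hG₁ hG₂ hG hσ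
      (hqM := hqM) (by rw [hD]; exact (hVe hxV).1) hflat
    rw [hD, hVw x hxV] at h
    rw [eq_neg_of_add_eq_zero_left h, neg_zsmul, mul_zsmul, natCast_zsmul]
  refine ⟨((-(((2 : ℕ) : ℤ) * ε) : ℤ) : ZMod 3), ?_, hVsc σ _ hrel⟩
  rcases hε with rfl | rfl
  · exact Or.inr (by push_cast; ring)
  · exact Or.inl (by push_cast; ring)

end FLTAgent.MazurP.Three
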