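import Fermat.Agent.GoodRed.RRTools
import Fermat.Agent.FunctionField.NormFormula
import Fermat.Agent.Hecke.Along
import Mathlib.RingTheory.Norm.Transitivity

/-!
# Places above a place, and norms in cubic extensions
-/

set_option autoImplicit false
set_option linter.style.haveILetI false
set_option linter.unusedSectionVars false

noncomputable section

open AlgebraicCurve Polynomial
open scoped IntermediateField

namespace FLTAgent.MazurP.Three

open FLTAgent.FunctionField FLTAgent.GoodRed

section cubic

/-- The norm of a root of a monic cubic outside the base, in a cubic extension. -/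
theorem norm_eq_of_cubic {E F : Type*} [Field E] [Field F] [Algebra E F]
    (h3 : Module.finrank E F = 3) {x : F} (hx : x ∉ Set.range (algebraMap E F)) {a b c : E}
    (h : x ^ 3 + algebraMap E F a * x ^ 2 + algebraMap E F b * x + algebraMap E F c = 0) :
    Algebra.norm E x = -c := by
  haveI : FiniteDimensional E F := Module.finite_of_finrank_pos (by omega)
  have hint : IsIntegral E x := Algebra.IsIntegral.isIntegral x
  have hmul := Module.finrank_mul_finrank E E⟮x⟯ F
  have h1 : Module.finrank E E⟮x⟯ ≠ 1 := fun h1 =>
    hx (IntermediateField.mem_bot.1 (IntermediateField.finrank_adjoin_simple_eq_one_iff.1 h1))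
  have hd : Module.finrank E E⟮x⟯ = 3 :=
    (Nat.Prime.eq_one_or_self_of_dvd Nat.prime_three _ ⟨_, (hmul.trans h3).symm⟩).resolve_left h1
  have hF : Module.finrank E⟮x⟯ F = 1 := by rw [hd, h3] at hmul; omega
  have hdeg : (minpoly E x).natDegree = 3 := by
    rw [← IntermediateField.adjoin.finrank hint, hd]
  set P : E[X] := X ^ 3 + C a * X ^ 2 + C b * X + C c with hP
  have hPdeg : P.natDegree = 3 := by rw [hP]; compute_degree!
  have hPm : P.Monic := by rw [hP]; monicity!
  have hP0 : aeval x P = 0 := by
    rw [hP]; simp only [map_add, map_mul, map_pow, aeval_X, aeval_C]; exact h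
  have hmin : minpoly E x = P := (eq_of_monic_of_dvd_of_natDegree_le (minpoly.monic hint) hPm
    (minpoly.dvd E x hP0) (by rw [hdeg, hPdeg])).symm
  rw [Algebra.norm_eq_norm_adjoin, hF, pow_one,
    ← IntermediateField.adjoin.powerBasis_gen hint, Algebra.PowerBasis.norm_gen_eq_coeff_zero_minpoly,
    IntermediateField.adjoin.powerBasis_gen hint, IntermediateField.minpoly_gen,
    IntermediateField.adjoin.powerBasis_dim, hdeg, hmin, hP]
  simp only [coeff_add, coeff_C_mul, coeff_X_pow, coeff_X_zero, coeff_C_zero]
  norm_num

end cubic

variable {K F F' : Type*} [Field K] [IsAlgClosed K] [Field F] [Field F'] [Algebra K F]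
  [Algebra K F'] [IsFunctionField K F] [IsFunctionField K F']
  (φ : F →ₐ[K] F') (hφ : φ.toRingHom.IsIntegral)

theorem ramificationIndexAlong_pos (w : Place K F') : 0 < w.ramificationIndexAlong φ := by
  letI := algebraAlong φ
  haveI : Module.Finite F F' := finiteAlong_of_isFunctionField φ
  exact w.ramificationIndex_pos

/-- A pushed forward divisor is the sum over the places above. -/
theorem pushforwardAlong_apply_eq_sum (D : Divisor K F') (v : Place K F) :
    Divisor.pushforwardAlong φ hφ D v = ∑ w ∈ Place.fiberAlong φ hφ v, D w := by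
  classical
  induction D using Finsupp.induction with
  | zero => simp
  | single_add w n D _ _ ih =>
    have hdeg : w.inertiaDegAlong φ hφ = 1 := by
      have h := Hecke.deg_restrictAlong_mul φ hφ w
      rwa [deg_eq_one, deg_eq_one, one_mul] at h
    rw [map_add, Finsupp.add_apply, ih, Divisor.pushforwardAlong_single, hdeg, Nat.cast_one,
      mul_one]
    simp only [Finsupp.add_apply, Finset.sum_add_distrib, Finsupp.single_apply,
      Finset.sum_ite_eq, Place.mem_fiberAlong]

/-- An effective divisor is bounded by its image. -/
theorem le_pushforwardAlong_apply {D : Divisor K F'} (hD : 0 ≤ D) {v : Place K F}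
    {w : Place K F'} (hw : w.restrictAlong φ hφ = v) :
    D w ≤ Divisor.pushforwardAlong φ hφ D v := by
  rw [pushforwardAlong_apply_eq_sum]
  exact Finset.single_le_sum (fun u _ => hD u) (Place.mem_fiberAlong.2 hw)

theorem pushforwardAlong_nonneg {D : Divisor K F'} (hD : 0 ≤ D) :
    0 ≤ Divisor.pushforwardAlong φ hφ D := fun v => by
  rw [pushforwardAlong_apply_eq_sum]
  exact Finset.sum_nonneg fun u _ => hD u

/-- The order of a norm. -/
theorem ord_norm_along (v : Place K F) {f : F'} (hf : f ≠ 0) :
    letI := algebraAlong φ
    v.ord (Algebra.norm F f) = ∑ w ∈ Place.fiberAlong φ hφ v, w.ord f := by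
  letI := algebraAlong φ
  haveI := isScalarTower_along φ
  haveI : Module.Finite F F' := finiteAlong_of_isFunctionField φ
  have h := Divisor.pushforwardAlong φ hφ (divisorOf (K := K) f) v
  rw [← Finset.sum_congr rfl fun w _ => divisorOf_apply (K := K) f w,
    ← pushforwardAlong_apply_eq_sum φ hφ]
  exact ((pushforwardNormFormula f hf _ (fun w => divisorOf_apply f w) v).symm.trans rfl)

/-- Not every ramification index above a place is a multiple of a number not dividing the
degree. -/
theorem exists_not_dvd_ramificationIndexAlong (v : Place K F) {m : ℕ}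
    (hm : ¬ m ∣ finrankAlong K φ) :
    ∃ w : Place K F', w.restrictAlong φ hφ = v ∧ ¬ m ∣ w.ramificationIndexAlong φ := by
  by_contra h
  push Not at h
  exact hm (sum_fiberAlong_ramificationIndex φ hφ v ▸
    Finset.dvd_sum fun w hw => h w (Place.mem_fiberAlong.1 hw))

end FLTAgent.MazurP.Three
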